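import Fermat.Agent.FLAT.Ordinary
import Fermat.Agent.FLAT.SS.Restrict

/-!
# The connected line of a flat level with ordinary reduction

For a model of `B²` (`B` finite with simple socle) on which inertia is residually `[[*, *], [0, 1]]`
and some inertia element moves onto the first line, the connected part lies in the first line, which
is stable under decomposition, and inertia is trivial on the quotient.
-/

set_option autoImplicit false

noncomputable section

open Fermat.EC.Val

namespace Fermat.FLAT

local notation "ℚbar" => AlgebraicClosure ℚ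
local notation "Γℚ" => (AlgebraicClosure ℚ ≃ₐ[ℚ] AlgebraicClosure ℚ)

variable {p : ℕ} [hp : Fact p.Prime] {A : ValuationSubring ℚbar}

namespace Model

variable {H : Subgroup Γℚ} {M : Type*} [AddCommGroup M] [Finite M] {g : Γℚ → AddMonoid.End M}

/-- If inertia acts trivially and `p ^ n` kills all points, the only connected point is zero
(`p` odd). -/
theorem eq_zero_of_trivial (G : Model A H g) (h : IsPlace A p) (hp2 : p ≠ 2) {n : ℕ}
    (hn : ∀ x : M, p ^ n • x = 0) (htriv : ∀ σ ∈ A.inertiaSubgroupIn ℚ, ∀ x, g σ x = x) {x : M}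
    (hx : x ∈ G.conn h) : x = 0 := by
  classical
  by_contra hx0
  have hex : ∃ k, p ^ k • x = 0 := ⟨n, hn x⟩
  obtain ⟨j, hj⟩ : ∃ j, Nat.find hex = j + 1 := Nat.exists_eq_succ_of_ne_zero fun h0 => hx0 (by
    have := Nat.find_spec hex
    rwa [h0, pow_zero, one_nsmul] at this)
  let T : AddSubgroup M := (nsmulAddMonoidHom p : M →+ M).ker
  let g' : Γℚ → AddMonoid.End T := fun σ => ((g σ).comp T.subtype).codRestrict T fun y => by
    change p • g σ y = 0
    rw [← map_nsmul, show p • (y : M) = 0 from y.2, map_zero]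
  have hy : p ^ j • x ∈ T := by
    change p • p ^ j • x = 0
    rw [← mul_smul, ← pow_succ', ← hj]
    exact Nat.find_spec hex
  let G' := G.restrict (g' := g') T.subtype Subtype.val_injective fun σ _ y => rfl
  have := G'.eq_zero_of_fixed (fun y => Subtype.ext y.2) h hp2 (x := ⟨_, hy⟩)
    (G.conn_restrict _ _ _ h (AddSubgroup.nsmul_mem _ hx _))
    fun σ hσ => Subtype.ext (htriv σ hσ _)
  exact Nat.find_min hex (show j < Nat.find hex by omega) (congrArg Subtype.val this)

/-- Restricting the group keeps the connected points. -/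
theorem exists_restrictH_conn (G : Model A H g) {I : Subgroup Γℚ}
    (hI : A.inertiaSubgroupIn ℚ ≤ I) (hIH : I ≤ H) (h : IsPlace A p) :
    ∃ G' : Model A I g, ∀ x ∈ G.conn h, x ∈ G'.conn h := by
  obtain ⟨G', hG'⟩ := G.exists_restrictH hI hIH
  refine ⟨G', fun x hx f hf hf0 => ?_⟩
  suffices ∀ u ∈ Submodule.span (Rfix A I) (G.O : Set (M → ℚbar)), Gt A p (u x - u 0) 0 by
    have := this f (hG' f hf)
    rwa [hf0, sub_zero] at this
  intro u hu
  induction hu using Submodule.span_induction with
  | mem u hu =>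
    obtain ⟨r, hr⟩ := G.exists_apply_zero hu
    have := hx _ (G.sub_mem_aug hu hr).1 (G.sub_mem_aug hu hr).2
    rwa [Pi.sub_apply, Pi.algebraMap_apply, hr] at this
  | zero => simp [Gt]
  | add u v _ _ hu hv =>
    have := hu.add h hv
    simpa [add_sub_add_comm] using this
  | smul r u _ hu =>
    have := (ge_Rfix h r).mul_gt h hu
    simpa [Algebra.smul_def, algebraMap_Rfix, mul_sub] using this

end Model

section Line

variable {B : Type} [CommRing B]

/-- Matrices as endomorphisms of vectors. -/
def mvHom : Matrix (Fin 2) (Fin 2) B →+* AddMonoid.End (Fin 2 → B) where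
  toFun X := X.mulVecLin.toAddMonoidHom
  map_one' := AddMonoidHom.ext fun v => Matrix.one_mulVec v
  map_mul' X Y := AddMonoidHom.ext fun v => (Matrix.mulVec_mulVec v X Y).symm
  map_zero' := AddMonoidHom.ext fun v => Matrix.zero_mulVec v
  map_add' X Y := AddMonoidHom.ext fun v => Matrix.add_mulVec X Y v

variable [Finite B] {k : Type} [Field k] [Finite k] [CharP k p] (q : B →+* k)

/-- **The connected part lies in the line.** The first line is stable under decomposition, contains
the connected part, and inertia is trivial on the quotient. -/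
theorem line_of_flat (h : IsPlace A p) (hp2 : p ≠ 2) (hq : Function.Surjective q) {z : B}
    (hzq : ∀ b, z * b = 0 ↔ q b = 0) (hz : ∀ b, b ≠ 0 → ∃ a, a * b = z) {n : ℕ}
    (hn : (p : B) ^ n = 0) {g : Γℚ → AddMonoid.End (Fin 2 → B)} (G : Model A (⊤ : Subgroup Γℚ) g)
    (s : Γℚ → Matrix (Fin 2) (Fin 2) B) (hgs : ∀ σ v, g σ v = (s σ).mulVec v)
    (hI : ∀ σ ∈ A.inertiaSubgroupIn ℚ, q (s σ 1 0) = 0 ∧ q (s σ 1 1) = 1)
    (hline : ∃ σ₀ ∈ A.inertiaSubgroupIn ℚ, ∃ v₀ : Fin 2 → B,
      (s σ₀).mulVec v₀ - v₀ = ![1, 0]) :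
    (∀ σ ∈ A.decompositionSubgroup ℚ, s σ 1 0 = 0) ∧
      (∀ σ ∈ A.inertiaSubgroupIn ℚ, s σ 1 1 = 1) ∧ ∀ v ∈ G.conn h, v 1 = 0 := by
  classical
  obtain ⟨G₁, hG₁⟩ := G.exists_restrictH_conn le_rfl le_top h
  have hmv : ∀ σ ∈ A.inertiaSubgroupIn ℚ, ∀ v, (s σ).mulVec v - v ∈ G.conn h := fun σ hσ v => by
    rw [← hgs]
    exact G.smul_sub_mem_conn h (isInert_of_mem_inertia hσ) (Subgroup.mem_top σ) _
  obtain ⟨σ₀, hσ₀, v₀, hv₀⟩ := hline
  -- the first line is connected
  have hfirst : ∀ b : B, ![b, 0] ∈ G.conn h := fun b => by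
    have := hmv σ₀ hσ₀ (b • v₀)
    rw [Matrix.mulVec_smul, ← smul_sub, hv₀] at this
    convert this using 1
    funext i; fin_cases i <;> simp
  -- otherwise a connected vector `(0, z)` would give a connected trivial residual quotient
  have hshape : ∀ σ ∈ A.inertiaSubgroupIn ℚ, s σ 1 0 = 0 ∧ s σ 1 1 = 1 := by
    intro τ hτ
    by_contra hne
    obtain ⟨j, hj⟩ : ∃ j, (s τ - 1) 1 j ≠ 0 := by
      by_contra! hall
      refine hne ⟨?_, ?_⟩
      · simpa using hall 0
      · simpa [sub_eq_zero] using hall 1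
    obtain ⟨a, ha⟩ := hz _ hj
    have hsec : ∀ b : B, ![0, b * z] ∈ G.conn h := by
      intro b
      have h1 := hmv τ hτ ((b * a) • Pi.single j 1)
      rw [show (s τ).mulVec ((b * a) • Pi.single j (1 : B)) - (b * a) • Pi.single j (1 : B) =
        (s τ - 1).mulVec ((b * a) •
          Pi.single j (1 : B)) by rw [Matrix.sub_mulVec, Matrix.one_mulVec],
        Matrix.mulVec_smul, Matrix.mulVec_single_one] at h1
      have h2 := sub_mem h1 (hfirst ((b * a) * (s τ - 1) 0 j))
      convert h2 using 1
      funext i; fin_cases i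
      · simp
      · simp [← ha, mul_assoc]
    let L : k → B := Function.surjInv hq
    have hL : ∀ c, q (L c) = c := Function.surjInv_eq hq
    have hzz : ∀ {b b' : B}, q b = q b' → z * b = z * b' := fun {b b'} e => by
      rw [← sub_eq_zero, ← mul_sub, hzq, map_sub, e, sub_self]
    let ι : (Fin 2 → k) →+ (Fin 2 → B) :=
      { toFun := fun v i => z * L (v i)
        map_zero' := funext fun i => by
          change z * L 0 = 0
          rw [hzq, hL]
        map_add' := fun u v => funext fun i => by
          change z * L (u i + v i) = z * L (u i) + z * L (v i)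
          rw [← mul_add]
          exact hzz (by rw [map_add, hL, hL, hL]) }
    have hι : Function.Injective ι := fun u v e => funext fun i => by
      have h1 : z * (L (u i) - L (v i)) = 0 := by rw [mul_sub, sub_eq_zero]; exact congrFun e i
      rw [hzq, map_sub, hL, hL, sub_eq_zero] at h1
      exact h1
    let g' : Γℚ → AddMonoid.End (Fin 2 → k) := fun σ => mvHom ((s σ).map q)
    have hg' : ∀ σ ∈ A.inertiaSubgroupIn ℚ, ∀ x, ι (g' σ x) = g σ (ι x) := by
      intro σ _ v
      rw [hgs]
      funext i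
      change z * L (((s σ).map q).mulVec v i) = ∑ l, s σ i l * (z * L (v l))
      rw [Finset.sum_congr rfl fun l _ => mul_left_comm (s σ i l) z (L (v l)), ← Finset.mul_sum]
      refine hzz ?_
      rw [hL, map_sum]
      simp only [map_mul, hL]
      rfl
    let G' := G₁.restrict (g' := g') ι hι hg'
    let π : (Fin 2 → k) →+ k := Pi.evalAddMonoidHom (fun _ => k) 1
    let G'' := G'.quot (g' := fun _ => (1 : AddMonoid.End k)) h π (fun c => ⟨fun _ => c, rfl⟩)
      fun σ hσ v => by
        change ((s σ).map q).mulVec v 1 = v 1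
        obtain ⟨h10, h11⟩ := hI σ hσ
        simp [Matrix.mulVec, dotProduct, Fin.sum_univ_two, h10, h11]
    have hmem : ι ![0, 1] ∈ G₁.conn h := hG₁ _ (by
      convert hsec (L 1) using 1
      funext i; fin_cases i
      · change z * L 0 = 0
        rw [hzq, hL]
      · exact mul_comm _ _)
    have := G''.eq_zero_of_trivial h hp2 (n := 1)
      (fun c => by rw [pow_one, nsmul_eq_mul, CharP.cast_eq_zero k p, zero_mul]) (fun _ _ _ => rfl)
      (G'.conn_quot π _ _ h (G₁.conn_restrict ι hι hg' h hmem))
    exact one_ne_zero (α := k) this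
  -- so the second coordinate is a trivial quotient, which kills the connected part
  have hconn : ∀ v ∈ G.conn h, v 1 = 0 := by
    intro v hv
    let π : (Fin 2 → B) →+ B := Pi.evalAddMonoidHom (fun _ => B) 1
    let G'' := G₁.quot (g' := fun _ => (1 : AddMonoid.End B)) h π (fun c => ⟨fun _ => c, rfl⟩)
      fun σ hσ v => by
        rw [hgs]
        change (s σ).mulVec v 1 = v 1
        obtain ⟨h10, h11⟩ := hshape σ hσ
        simp [Matrix.mulVec, dotProduct, Fin.sum_univ_two, h10, h11]
    exact G''.eq_zero_of_trivial h hp2 (n := n)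
      (fun c => by rw [nsmul_eq_mul, Nat.cast_pow, hn, zero_mul]) (fun _ _ _ => rfl)
      (G₁.conn_quot π _ _ h (hG₁ v hv))
  refine ⟨fun σ hσ => ?_, fun σ hσ => (hshape σ hσ).2, hconn⟩
  have h1 := hconn _ (G.conn_stable_decomposition h hσ (Subgroup.mem_top σ) (hfirst 1))
  rw [hgs] at h1
  simpa [Matrix.mulVec, dotProduct, Fin.sum_univ_two] using h1

end Line

end Fermat.FLAT
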