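import Fermat.Agent.FLAT.ORD.Kummer

/-!
# Counting ordinary flat classes

`exists_invariant`: the leading residue at level `p - 1` (`Kummer`) is a semilinear eigenfunctional,
so takes at most `|k|` values; the unramified diagonal entry takes at most `|k|`.  When the residual
extension is non-split the coboundaries of diagonal matrices absorb the first. This is the ordinary
half of `FLAT/Tangent`.
-/

set_option autoImplicit false
set_option linter.unusedSectionVars false

noncomputable section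

open Fermat.EC.Val IsLocalRing Matrix

namespace Fermat.FLAT

local notation "ℚbar" => AlgebraicClosure ℚ
local notation "Γℚ" => (AlgebraicClosure ℚ ≃ₐ[ℚ] AlgebraicClosure ℚ)

/-- Semilinear fixed points form a space of dimension at most that of the ambient space. -/
theorem finite_semilinear {p : ℕ} [Fact p.Prime] {F V : Type*} [Field F] [CharP F p]
    [AddCommGroup V] [Module F V] [FiniteDimensional F V] (Φ : V →+ V)
    (hΦ : ∀ (a : F) v, Φ (a • v) = a ^ p • Φ v) (T : V →ₗ[F] V) (hT : Function.Injective T) :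
    Finite {v // Φ v = T v} ∧ Nat.card {v // Φ v = T v} ≤ p ^ Module.finrank F V := by
  classical
  obtain ⟨b, hb, hspan, hli⟩ := exists_linearIndependent F {v | Φ v = T v}
  have : Finite b := hli.finite
  have : Fintype b := Fintype.ofFinite b
  let Ψ : (b → ZMod p) → V := fun a => ∑ i, ZMod.castHom (dvd_refl p) F (a i) • (i : V)
  have hsub : ∀ v : {v // Φ v = T v}, ∃ a, Ψ a = v.1 := by
    rintro ⟨v, hv⟩
    have hv' : v ∈ Submodule.span F (Set.range (Subtype.val : b → V)) := by
      rw [Subtype.range_coe, hspan]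
      exact Submodule.subset_span hv
    obtain ⟨a, rfl⟩ := (Submodule.mem_span_range_iff_exists_fun F).mp hv'
    have h0 : ∑ i, (a i ^ p - a i) • T (i : V) = 0 := by
      simp only [sub_smul, Finset.sum_sub_distrib]
      rw [sub_eq_zero, ← Finset.sum_congr rfl fun i _ => map_smul T (a i)
        (i : V), ← map_sum T, ← hv, map_sum Φ]
      refine Finset.sum_congr rfl fun i _ => ?_
      rw [hΦ, show Φ (i : V) = T i from hb i.2]
    have hfix := Fintype.linearIndependent_iff.mp (hli.map' T (LinearMap.ker_eq_bot.mpr hT)) _ h0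
    choose n hn using fun i => CFT.exists_natCast_eq_of_pow_eq p (sub_eq_zero.mp (hfix i))
    exact ⟨fun i => n i, Finset.sum_congr rfl fun i _ => by rw [map_natCast, hn]⟩
  choose a ha using hsub
  have hinj : Function.Injective a := fun v w e => Subtype.ext (by rw [← ha v, ← ha w, e])
  have : NeZero p := ⟨(Fact.out : p.Prime).ne_zero⟩
  refine ⟨Finite.of_injective a hinj, (Nat.card_le_card_of_injective a hinj).trans ?_⟩
  rw [Nat.card_fun, Nat.card_zmod, Nat.card_eq_fintype_card]
  exact Nat.pow_le_pow_right (Fact.out : p.Prime).pos hli.fintype_card_le_finrank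

variable {p : ℕ} [hp : Fact p.Prime] {A : ValuationSubring ℚbar}
  {k : Type*} [Field k] [CharP k p] [Finite k] {r : Γℚ →* Matrix (Fin 2) (Fin 2) k}

namespace OrdData

variable (D : OrdData p A r)

/-- The upper right entries of two classes, as one tame map to `k × k`. -/
def ordPair {c c' : Γℚ → Matrix (Fin 2) (Fin 2) k} (hc : D.Shape c) (hc' : D.Shape c') :
    TameMap p A D.π (k × k) where
  c σ := (c σ 0 1, c' σ 0 1)
  ξ := D.ξ
  root := D.root
  fix_root := (ordMap hc).fix_root
  map_mul σ hσ τ hτ := Prod.ext ((ordMap hc).map_mul σ hσ τ hτ) ((ordMap hc').map_mul σ hσ τ hτ)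
  level := (ordMap hc).level ⊔ (ordMap hc').level
  finite := by
    have := (ordMap hc).finite
    have := (ordMap hc').finite
    exact IntermediateField.finiteDimensional_sup _ _
  normal := normal_sup_level _ _ (ordMap hc).normal (ordMap hc').normal
  map_fix σ hσ hσL := Prod.ext
    ((ordMap hc).map_fix σ hσ (IntermediateField.fixingSubgroup_antitone le_sup_left hσL))
    ((ordMap hc').map_fix σ hσ (IntermediateField.fixingSubgroup_antitone le_sup_right hσL))

/-- Leading residues of a difference of classes subtract. -/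
theorem ord_lead_sub {c c' : Γℚ → Matrix (Fin 2) (Fin 2) k} (hc : D.Shape c) (hc' : D.Shape c')
    {β : k →+ ZMod p} {l l' : ResidueField A} (h₁ : (ordMap hc).Lead (p - 1) (p - 1) β l)
    (h₂ : (ordMap hc').Lead (p - 1) (p - 1) β l') :
    (ordMap (hc.sub hc')).Lead (p - 1) (p - 1) β (l - l') := by
  have := charP_res D.place
  have hn : 0 < p - 1 := by have := D.two_le; omega
  have g₁ : (D.ordPair hc hc').Lead (p - 1) (p - 1) (β.comp (AddMonoidHom.fst k k)) l := h₁
  have g₂ : (D.ordPair hc hc').Lead (p - 1) (p - 1) (β.comp (AddMonoidHom.snd k k)) l' := h₂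
  have g₃ := TameMap.Lead.add D.place not_dvd_sub_one D.pi_pow hn g₁
    (TameMap.Lead.nsmul D.place not_dvd_sub_one D.pi_pow hn g₂ (p - 1))
  rw [Nat.cast_sub hp.out.one_le, CharP.cast_eq_zero (ResidueField A) p, Nat.cast_one, zero_sub,
    neg_one_mul, ← sub_eq_add_neg] at g₃
  exact g₃.congr (g := β.comp (AddMonoidHom.fst k k - AddMonoidHom.snd k k)) fun σ _ => by
    simp [Nat.cast_sub hp.out.one_le, sub_eq_add_neg]

/-- The leading residues of a class. -/
def omega {c : Γℚ → Matrix (Fin 2) (Fin 2) k} (hc : D.OrdClass c) :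
    (k →+ ZMod p) →+ ResidueField A :=
  AddMonoidHom.mk' (fun β => (hc.lev β).exists_lead.choose) fun β β' =>
    TameMap.Lead.unique D.place not_dvd_sub_one D.pi_pow not_dvd_sub_one level_lt_p
      (hc.lev (β + β')).exists_lead.choose_spec
      (TameMap.Lead.add D.place not_dvd_sub_one D.pi_pow (by have := D.two_le; omega)
        (hc.lev β).exists_lead.choose_spec (hc.lev β').exists_lead.choose_spec)

/-- `omega` is the leading residue of every character. -/
lemma omega_spec {c : Γℚ → Matrix (Fin 2) (Fin 2) k} (hc : D.OrdClass c) (β : k →+ ZMod p) :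
    (ordMap hc.shape).Lead (p - 1) (p - 1) β (D.omega hc β) :=
  (hc.lev β).exists_lead.choose_spec

variable {D} in
/-- Differences of ordinary classes are ordinary. -/
lemma OrdClass.sub {c c' : Γℚ → Matrix (Fin 2) (Fin 2) k} (hc : D.OrdClass c)
    (hc' : D.OrdClass c') : D.OrdClass (c - c') :=
  ⟨hc.shape.sub hc'.shape, fun β =>
    (D.ord_lead_sub hc.shape hc'.shape (D.omega_spec hc β) (D.omega_spec hc' β)).lev⟩

/-- `omega` respects differences. -/
lemma omega_sub {c c' : Γℚ → Matrix (Fin 2) (Fin 2) k} (hc : D.OrdClass c) (hc' : D.OrdClass c') :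
    D.omega (hc.sub hc') = D.omega hc - D.omega hc' :=
  AddMonoidHom.ext fun β => TameMap.Lead.unique D.place not_dvd_sub_one D.pi_pow not_dvd_sub_one
    level_lt_p (D.omega_spec (hc.sub hc') β)
    (D.ord_lead_sub hc.shape hc'.shape (D.omega_spec hc β) (D.omega_spec hc' β))

/-- `omega` depends only on the cocycle. -/
lemma omega_congr {c c' : Γℚ → Matrix (Fin 2) (Fin 2) k} (hc : D.OrdClass c) (hc' : D.OrdClass c')
    (e : c = c') : D.omega hc = D.omega hc' := by subst e; rfl

/-- Vanishing leading residues kill the class on the tame group. -/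
lemma tame_zero {c : Γℚ → Matrix (Fin 2) (Fin 2) k} (hc : D.OrdClass c) (h0 : D.omega hc = 0) :
    ∀ τ ∈ tame A D.π, c τ 0 1 = 0 := by
  intro τ hτ
  let : Algebra (ZMod p) k := ZMod.algebra k p
  refine (Module.finBasis (ZMod p) k).forall_coord_eq_zero_iff.mp fun i => ?_
  set β : k →+ ZMod p := ((Module.finBasis (ZMod p) k).coord i).toAddMonoidHom
  refine trivial_of_lead hc.shape (β := β) ?_ τ hτ
  have := D.omega_spec hc β
  rwa [h0, AddMonoidHom.zero_apply] at this

/-- **Unobstructed classes vanish.** A class of this shape is zero on decomposition if its diagonal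
entry at Frobenius and its corner on the tame group vanish. -/
theorem eq_zero {c : Γℚ → Matrix (Fin 2) (Fin 2) k} (hc : D.Shape c) (hu : c D.φ 0 0 = 0)
    (ht : ∀ τ ∈ tame A D.π, c τ 0 1 = 0) : ∀ σ ∈ A.decompositionSubgroup ℚ, c σ = 0 := by
  classical
  have hsucc : ∀ {σ τ : Γℚ}, σ ∈ A.decompositionSubgroup ℚ → τ ∈ A.decompositionSubgroup ℚ →
      c σ = 0 → c τ = 0 → c (σ * τ) = 0 := fun {σ τ} hσ hτ h1 h2 => by
    rw [hc.cocycle.map_mul σ hσ τ hτ, h1, h2, mul_zero, zero_mul, add_zero]
  have hpow : ∀ {σ : Γℚ}, σ ∈ A.decompositionSubgroup ℚ → c σ = 0 → ∀ i : ℕ, c (σ ^ i) = 0 :=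
    fun {σ} hσ h1 i => by
      induction i with
      | zero => rw [pow_zero, hc.one]
      | succ i ih => rw [pow_succ]; exact hsucc (pow_mem hσ i) hσ ih h1
  have htame : ∀ τ ∈ tame A D.π, c τ = 0 := fun τ hτ => Matrix.ext fun i j => by
    fin_cases i <;> fin_cases j <;>
      simp [ht τ hτ, hc.diag_zero hτ.1, hc.lower τ (D.tame_dec hτ), hc.unram τ hτ.1]
  -- inertia: powers of `γ` times the tame group
  have hI : ∀ σ ∈ A.inertiaSubgroupIn ℚ, c σ = 0 := by
    intro σ hσ
    obtain ⟨i, hmem⟩ := exists_pow_inv_mul_mem_tame D.place not_dvd_sub_one D.pi_pow D.prim_z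
      D.γ_mem D.γ_pi hσ
    rw [show σ = D.γ ^ i * ((D.γ ^ i)⁻¹ * σ) by group]
    exact hsucc (pow_mem D.γ_dec i) (D.tame_dec hmem) (hpow D.γ_dec hc.gamma i) (htame _ hmem)
  have hφ := D.φ_dec
  -- Frobenius: compare `φ γ = γ' φ`
  have hcφ : c D.φ = 0 := by
    set γ' := D.φ * D.γ * D.φ⁻¹
    have hγ' : γ' ∈ A.inertiaSubgroupIn ℚ := conj_mem_inertia D.place hφ D.γ_mem
    have e1 : c (D.φ * D.γ) = c D.φ := by
      rw [hc.cocycle.map_mul _ hφ _ D.γ_dec, hc.gamma, mul_zero, zero_mul, add_zero]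
    rw [show D.φ * D.γ = γ' * D.φ by simp [γ']] at e1
    have e2 := (hc.map_mul_apply (inertia_le_decomposition A hγ') hφ).2
    have hcyc : cycNat p γ' = cycNat p D.γ := by
      simp only [cycNat, γ', _root_.map_mul, _root_.map_inv]
      rw [mul_comm (Fermat.CFT.cycChar p D.φ), mul_inv_cancel_right]
    rw [e1, hI _ hγ', hu, mul_zero, sub_zero, D.inertia_one _ hγ', D.inertia_cyc _ hγ', hcyc,
      div_one, Matrix.zero_apply, zero_add] at e2
    have hn : c D.φ 0 1 = 0 := by
      have e3 : ((cycNat p D.γ : k) - 1) * c D.φ 0 1 = 0 := by linear_combination -e2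
      exact (mul_eq_zero.mp e3).resolve_left (sub_ne_zero.mpr D.χ_ne_one)
    exact Matrix.ext fun i j => by
      fin_cases i <;> fin_cases j <;> simp [hu, hn, hc.lower _ hφ, hc.apply_one_one hφ]
  -- decomposition: Frobenius powers times inertia, up to the level of `c`
  intro δ hδ
  obtain ⟨L₀, hfin, hnorm, hL₀⟩ := hc.cocycle.level
  have := hfin
  have := hnorm
  obtain ⟨i, τ, hτ, heq⟩ := exists_frob_pow_mul (L := L₀) (ρ := AlgEquiv.restrictNormalHom L₀)
    D.place (fun s hs => (Fermat.CFT.restrict_eq_one_iff L₀ s).mpr hs) D.frob hδ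
  have hτD := inertia_le_decomposition A hτ
  have hνD : (D.φ ^ i * τ)⁻¹ * δ ∈ A.decompositionSubgroup ℚ :=
    mul_mem (inv_mem (mul_mem (pow_mem hφ i) hτD)) hδ
  rw [show δ = D.φ ^ i * τ * ((D.φ ^ i * τ)⁻¹ * δ) by group]
  refine hsucc (mul_mem (pow_mem hφ i) hτD) hνD
    (hsucc (pow_mem hφ i) hτD (hpow hφ hcφ i) (hI τ hτ)) (hL₀ _ hνD ?_)
  rw [← Fermat.CFT.restrict_eq_one_iff, _root_.map_mul, _root_.map_inv, _root_.map_mul,
    _root_.map_pow, ← heq, inv_mul_cancel]

/-! ### The semilinear space -/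

/-- Precomposition with multiplication by the Frobenius ratio. -/
def pre : (k →+ ZMod p) →+ (k →+ ZMod p) :=
  AddMonoidHom.mk' (fun β => β.comp (AddMonoidHom.mulLeft D.α)) fun _ _ => rfl

/-- The operator `ω ↦ χ (ω ∘ pre)` on functionals, `χ` cyclotomic at Frobenius. -/
def Tω : ((k →+ ZMod p) →+ ResidueField A) →ₗ[ResidueField A]
    ((k →+ ZMod p) →+ ResidueField A) where
  toFun ω := (cycNat p D.φ : ResidueField A) • ω.comp D.pre
  map_add' ω ω' := by ext β; simp [mul_add]
  map_smul' a ω := by ext β; simp [mul_left_comm]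

/-- Composition with Frobenius. -/
def Φω (h : IsPlace A p) : ((k →+ ZMod p) →+ ResidueField A) →+
    ((k →+ ZMod p) →+ ResidueField A) :=
  haveI := charP_res h
  AddMonoidHom.mk' (fun ω => (frobenius (ResidueField A) p).toAddMonoidHom.comp ω) fun ω ω' => by
    ext β; simp

/-- The functionals `ω` on which `Φω` and `Tω` agree. -/
def Ω : Type _ := {ω // Φω (k := k) D.place ω = D.Tω ω}

/-- Leading residues of classes with vanishing diagonal at Frobenius are eigenfunctionals. -/
lemma phi_omega_eq {c : Γℚ → Matrix (Fin 2) (Fin 2) k} (hc : D.OrdClass c) (hu : c D.φ 0 0 = 0) :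
    Φω (k := k) D.place (D.omega hc) = D.Tω (D.omega hc) := by
  ext β
  have := charP_res D.place
  have h1 := TameMap.Lead.nsmul D.place not_dvd_sub_one D.pi_pow
    (by have := D.two_le; omega) (D.omega_spec hc (D.pre β)) (cycNat p D.φ)
  exact TameMap.Lead.unique D.place not_dvd_sub_one D.pi_pow not_dvd_sub_one level_lt_p
    (lead_frob hc.shape hu (D.omega_spec hc β)) h1

/-- The leading residues take at most `#k` values. -/
theorem finite_Ω : Finite D.Ω ∧ Nat.card D.Ω ≤ Nat.card k := by
  classical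
  have := charP_res D.place
  have : NeZero p := ⟨hp.out.ne_zero⟩
  let : Algebra (ZMod p) k := ZMod.algebra k p
  set b := Module.finBasis (ZMod p) k
  let ev : ((k →+ ZMod p) →+ ResidueField A) →ₗ[ResidueField A]
      (Fin (Module.finrank (ZMod p) k) → ResidueField A) :=
    { toFun := fun ω i => ω (b.coord i).toAddMonoidHom
      map_add' := fun _ _ => rfl
      map_smul' := fun _ _ => rfl }
  -- functionals are determined by their values on a basis
  have hev : Function.Injective ev := by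
    rw [injective_iff_map_eq_zero]
    intro ω hω
    refine AddMonoidHom.ext fun β => ?_
    have hβ : β = ∑ i, (β (b i)).val • (b.coord i).toAddMonoidHom := by
      refine AddMonoidHom.ext fun x => ?_
      simp only [AddMonoidHom.finsetSum_apply, AddMonoidHom.smul_apply, nsmul_eq_mul,
        ZMod.natCast_zmod_val, LinearMap.toAddMonoidHom_coe, Module.Basis.coord_apply]
      conv_lhs => rw [← b.sum_repr x, map_sum]
      refine Finset.sum_congr rfl fun i _ => ?_
      rw [← ZMod.natCast_zmod_val (b.repr x i), Nat.cast_smul_eq_nsmul, map_nsmul, nsmul_eq_mul,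
        mul_comm]
    rw [hβ, map_sum, AddMonoidHom.zero_apply]
    refine Finset.sum_eq_zero fun i _ => ?_
    have h2 : ω (b.coord i).toAddMonoidHom = 0 := congrFun hω i
    rw [map_nsmul, h2, smul_zero]
  have : FiniteDimensional (ResidueField A) ((k →+ ZMod p) →+ ResidueField A) :=
    FiniteDimensional.of_injective ev hev
  have hα : D.α ≠ 0 :=
    div_ne_zero (D.diag_ne_zero (inv_mem D.φ_dec)).1 (D.diag_ne_zero (inv_mem D.φ_dec)).2
  have hχ : (cycNat p D.φ : ResidueField A) ≠ 0 := fun e => χ_ne_zero (k := k) (p := p) D.φ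
    ((CharP.cast_eq_zero_iff k p _).mpr ((CharP.cast_eq_zero_iff (ResidueField A) p _).mp e))
  -- the semilinear operator is injective
  have hT : Function.Injective D.Tω := by
    rw [injective_iff_map_eq_zero]
    intro ω hω
    refine AddMonoidHom.ext fun β => ?_
    have h1 := DFunLike.congr_fun hω (β.comp (AddMonoidHom.mulLeft D.α⁻¹))
    have e : D.pre (β.comp (AddMonoidHom.mulLeft D.α⁻¹)) = β := by
      ext x
      simp [pre, inv_mul_cancel_left₀ hα]
    simp only [Tω, LinearMap.coe_mk, AddHom.coe_mk, AddMonoidHom.smul_apply,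
      AddMonoidHom.comp_apply, e, AddMonoidHom.zero_apply, smul_eq_mul, mul_eq_zero] at h1
    exact h1.resolve_left hχ
  obtain ⟨hfin, hcard⟩ := finite_semilinear (p := p) (Φω (k := k) D.place)
    (fun a ω => by ext β; simp [Φω, mul_pow, frobenius_def]) D.Tω hT
  refine ⟨hfin, hcard.trans ?_⟩
  rw [Module.natCard_eq_pow_finrank (K := ZMod p) (V := k), Nat.card_zmod]
  refine Nat.pow_le_pow_right hp.out.pos ?_
  have := LinearMap.finrank_le_finrank_of_injective hev
  rwa [Module.finrank_fin_fun] at this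

/-! ### Normalisation -/

/-- The diagonal trace zero matrix. -/
def diagX (x : k) : Matrix (Fin 2) (Fin 2) k := !![x, 0; 0, -x]

/-- The off-diagonal matrix removing the off-diagonal entries at `γ`. -/
def offX (M : Matrix (Fin 2) (Fin 2) k) : Matrix (Fin 2) (Fin 2) k :=
  !![0, M 0 1 / ((cycNat p D.γ : k) - 1);
    M 1 0 * (cycNat p D.γ : k) / (1 - (cycNat p D.γ : k)), 0]

/-- `diagX x` has trace zero. -/
lemma trace_diagX (x : k) : (diagX x).trace = 0 := by simp [diagX, Matrix.trace_fin_two]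

/-- `offX M` has trace zero. -/
lemma trace_offX (M : Matrix (Fin 2) (Fin 2) k) : (D.offX M).trace = 0 := by
  simp [offX, Matrix.trace_fin_two]

/-- Normalisation at `γ`. -/
def norm (c : Γℚ → Matrix (Fin 2) (Fin 2) k) : Γℚ → Matrix (Fin 2) (Fin 2) k :=
  c - adCob r (D.offX (c D.γ))

/-- The coboundary of a difference. -/
lemma adCob_sub (X Y : Matrix (Fin 2) (Fin 2) k) :
    adCob r (X - Y) = adCob r X - adCob r Y := by
  funext σ
  simp only [adCob_apply, Pi.sub_apply, mul_sub, sub_mul]
  abel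

/-- The coboundary of a sum. -/
lemma adCob_add (X Y : Matrix (Fin 2) (Fin 2) k) :
    adCob r (X + Y) = adCob r X + adCob r Y := by
  funext σ
  simp only [adCob_apply, Pi.add_apply, mul_add, add_mul]
  abel

/-- The entries of `r γ⁻¹`. -/
lemma r_γ_inv : r D.γ⁻¹ 0 1 = 0 ∧ r D.γ⁻¹ 1 0 = 0 ∧
    r D.γ⁻¹ 0 0 = (cycNat p D.γ : k)⁻¹ ∧ r D.γ⁻¹ 1 1 = 1 := by
  obtain ⟨h00, h11, h01⟩ := D.r_entries D.γ_dec
  rw [D.inertia_cyc _ D.γ_mem] at h00 h01
  rw [D.γ_diag, zero_mul, add_zero] at h01
  exact ⟨(mul_eq_zero.mp h01).resolve_left (χ_ne_zero D.γ), D.lower _ (inv_mem D.γ_dec),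
    eq_inv_of_mul_eq_one_right h00, D.inertia_one _ (inv_mem D.γ_mem)⟩

/-- The normalised cocycle is diagonal at `γ`. -/
lemma norm_γ (c : Γℚ → Matrix (Fin 2) (Fin 2) k) :
    D.norm c D.γ 0 1 = 0 ∧ D.norm c D.γ 1 0 = 0 := by
  obtain ⟨h01, h10, h00, h11⟩ := D.r_γ_inv
  have hχ := χ_ne_zero (k := k) (p := p) D.γ
  have hχ1 : (cycNat p D.γ : k) - 1 ≠ 0 := sub_ne_zero.mpr D.χ_ne_one
  have hχ2 : 1 - (cycNat p D.γ : k) ≠ 0 := sub_ne_zero.mpr (Ne.symm D.χ_ne_one)
  constructor <;>
    simp [norm, adCob_apply, offX, Matrix.mul_apply, Fin.sum_univ_two, h01, h10, h00, h11,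
      D.γ_diag, D.lower _ D.γ_dec, D.inertia_cyc _ D.γ_mem, D.inertia_one _ D.γ_mem] <;>
    field_simp <;> ring

/-- Diagonal coboundaries vanish at `γ`. -/
lemma diagX_γ (x : k) : adCob r (diagX x) D.γ = 0 := by
  obtain ⟨h01, h10, h00, h11⟩ := D.r_γ_inv
  have hχ := χ_ne_zero (k := k) (p := p) D.γ
  ext i j
  fin_cases i <;> fin_cases j <;>
    simp [adCob_apply, diagX, Matrix.mul_apply, Fin.sum_univ_two, h01, h10, h00, h11,
      D.γ_diag, D.lower _ D.γ_dec, D.inertia_cyc _ D.γ_mem, D.inertia_one _ D.γ_mem]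
  field_simp
  ring

variable (L : IntermediateField ℚ ℚbar) [FiniteDimensional ℚ L] [Normal ℚ L]
  (hL : ∀ σ ∈ L.fixingSubgroup, r σ = 1)
include hL

/-- The normalisation of a flat cocycle is an ordinary class. -/
lemma ordClass_norm {c : Γℚ → Matrix (Fin 2) (Fin 2) k} (hc : IsFlatCocycle A r c) :
    D.OrdClass (D.norm c) :=
  D.ordClass_of_flat (hc.sub_adCob L hL _) (D.norm_γ c).1 (D.norm_γ c).2

/-- Diagonal coboundaries are ordinary classes, once a flat cocycle exists. -/
lemma ordClass_diag {c : Γℚ → Matrix (Fin 2) (Fin 2) k} (hc : IsFlatCocycle A r c) (x : k) :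
    D.OrdClass (adCob r (diagX x)) := by
  have h1 := D.ordClass_norm L hL hc
  have h2 : D.OrdClass (D.norm c - adCob r (diagX x)) := by
    refine D.ordClass_of_flat ((hc.sub_adCob L hL _).sub_adCob L hL (diagX x))
      ?_ ?_ <;> simp [D.diagX_γ, D.norm_γ]
  have := h1.sub h2
  rwa [sub_sub_cancel] at this

omit hL
include D

/-- The upper entries of a diagonal coboundary. -/
lemma adCob_diagX_apply (x : k) {σ : Γℚ} (hσ : σ ∈ A.decompositionSubgroup ℚ) :
    adCob r (diagX x) σ 0 0 = 0 ∧ adCob r (diagX x) σ 0 1 = -2 * x * r σ 0 1 / r σ 1 1 := by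
  obtain ⟨-, h00, -, h01⟩ := D.conj_apply hσ (X := diagX x) (by simp [diagX])
  rw [adCob_apply, Matrix.sub_apply, Matrix.sub_apply, h00, h01]
  refine ⟨sub_self _, ?_⟩
  simp [diagX]
  ring

include hL D

/-- Classes with the same diagonal value at Frobenius whose leading residues differ by that of a
diagonal coboundary differ by a coboundary. -/
theorem isAdCoboundary_sub_of_omega {c₀ c c' : Γℚ → Matrix (Fin 2) (Fin 2) k}
    (hc₀ : IsFlatCocycle A r c₀) (hc : IsFlatCocycle A r c) (hc' : IsFlatCocycle A r c')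
    (hu : D.norm c D.φ 0 0 = D.norm c' D.φ 0 0) (x : k)
    (hx : D.omega ((D.ordClass_norm L hL hc).sub (D.ordClass_norm L hL hc')) =
      D.omega (D.ordClass_diag L hL hc₀ x)) : IsAdCoboundary A r (c - c') := by
  have hd := ((D.ordClass_norm L hL hc).sub (D.ordClass_norm L hL hc')).sub
    (D.ordClass_diag L hL hc₀ x)
  have hu0 : (D.norm c - D.norm c' - adCob r (diagX x)) D.φ 0 0 = 0 := by
    simp only [Pi.sub_apply, Matrix.sub_apply, (D.adCob_diagX_apply x D.φ_dec).1, sub_zero]
    exact sub_eq_zero.mpr hu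
  have h0 : D.omega hd = 0 := by
    rw [D.omega_sub ((D.ordClass_norm L hL hc).sub (D.ordClass_norm L hL hc'))
      (D.ordClass_diag L hL hc₀ x), hx, sub_self]
  refine ⟨diagX x + (D.offX (c D.γ) - D.offX (c' D.γ)), ?_, fun σ hσ => ?_⟩
  · rw [Matrix.trace_add, Matrix.trace_sub, trace_diagX, D.trace_offX, D.trace_offX, sub_zero,
      add_zero]
  · have h1 := D.eq_zero hd.shape hu0 (D.tame_zero hd h0) σ hσ
    rw [← adCob_apply, adCob_add, adCob_sub]
    simp only [norm, Pi.sub_apply, Pi.add_apply] at h1 ⊢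
    rw [← sub_eq_zero, ← h1]
    abel

/-- **The ordinary count.** Flat cocycles modulo coboundaries take at most `#invariants · #k`
values. -/
theorem exists_invariant {c₀ : Γℚ → Matrix (Fin 2) (Fin 2) k} (hc₀ : IsFlatCocycle A r c₀) :
    ∃ n : ℕ, n ≤ Nat.card (adInvariants A r) * Nat.card k ∧
      ∃ Θ : (Γℚ → Matrix (Fin 2) (Fin 2) k) → Fin n, ∀ c c', IsFlatCocycle A r c →
        IsFlatCocycle A r c' → Θ c = Θ c' → IsAdCoboundary A r (c - c') := by
  classical
  obtain ⟨hfin, hΩ⟩ := D.finite_Ω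
  have := hfin
  let u : (Γℚ → Matrix (Fin 2) (Fin 2) k) → k := fun c => D.norm c D.φ 0 0
  let ψ : k →+ ((k →+ ZMod p) →+ ResidueField A) :=
    AddMonoidHom.ofMapSub (fun x => D.omega (D.ordClass_diag L hL hc₀ x)) fun x y => by
      rw [← D.omega_sub]
      refine D.omega_congr _ _ ?_
      rw [← adCob_sub]
      congr 1
      ext i j
      fin_cases i <;> fin_cases j <;> simp [diagX]
      ring
  have hψmem : ∀ x, Φω (k := k) D.place (ψ x) = D.Tω (ψ x) := fun x =>
    D.phi_omega_eq (D.ordClass_diag L hL hc₀ x) (D.adCob_diagX_apply x D.φ_dec).1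
  have := Fintype.ofFinite k
  by_cases hinj : Function.Injective ψ
  · -- non-split: the diagonal coboundaries absorb the leading residues
    let ψ' : k → D.Ω := fun x => ⟨ψ x, hψmem x⟩
    have hψ'inj : Function.Injective ψ' := fun x y e => hinj (congrArg Subtype.val e)
    have hsurj : Function.Surjective ψ' := by
      have := Fintype.ofFinite D.Ω
      refine ((Fintype.bijective_iff_injective_and_card ψ').mpr ⟨hψ'inj, ?_⟩).2
      rw [← Nat.card_eq_fintype_card, ← Nat.card_eq_fintype_card]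
      exact le_antisymm (Nat.card_le_card_of_injective ψ' hψ'inj) hΩ
    refine ⟨Nat.card k, ?_, fun c => Finite.equivFin k (u c), fun c c' hc hc' e => ?_⟩
    · have : Nonempty (adInvariants A r) := ⟨⟨0, by simp [adInvariants]⟩⟩
      exact Nat.le_mul_of_pos_left _ Nat.card_pos
    · have hu := (Finite.equivFin k).injective e
      obtain ⟨x, hx⟩ := hsurj ⟨_, D.phi_omega_eq
        ((D.ordClass_norm L hL hc).sub (D.ordClass_norm L hL hc'))
        (by simp only [Pi.sub_apply, Matrix.sub_apply]; exact sub_eq_zero.mpr hu)⟩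
      exact D.isAdCoboundary_sub_of_omega L hL hc₀ hc hc' hu x (congrArg Subtype.val hx).symm
  -- split: diagonal matrices are invariant
  rw [injective_iff_map_eq_zero] at hinj
  push Not at hinj
  obtain ⟨x₀, hx₀, hx₀0⟩ := hinj
  have hsI : ∀ τ ∈ tame A D.π, r τ 0 1 = 0 := by
    intro τ hτ
    have h1 := D.tame_zero (D.ordClass_diag L hL hc₀ x₀) hx₀ τ hτ
    rw [(D.adCob_diagX_apply x₀ (D.tame_dec hτ)).2, D.inertia_one τ hτ.1, div_one,
      mul_eq_zero] at h1
    exact h1.resolve_left (mul_ne_zero (neg_ne_zero.mpr (two_ne_zero_of_charP (p := p) D.odd)) hx₀0)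
  have hs : ∀ σ ∈ A.decompositionSubgroup ℚ, r σ 0 1 = 0 := by
    -- the coboundary of a diagonal matrix is then killed by `eq_zero`
    intro σ hσ
    have h1 := D.eq_zero (D.ordClass_diag L hL hc₀ x₀).shape (D.adCob_diagX_apply x₀ D.φ_dec).1
      (fun τ hτ => by rw [(D.adCob_diagX_apply x₀ (D.tame_dec hτ)).2, hsI τ hτ, mul_zero, zero_div])
      σ hσ
    have h2 := congrFun (congrFun h1 0) 1
    rw [(D.adCob_diagX_apply x₀ hσ).2, Matrix.zero_apply, div_eq_zero_iff,
      or_iff_left (D.diag_ne_zero hσ).2, mul_eq_zero] at h2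
    exact h2.resolve_left (mul_ne_zero (neg_ne_zero.mpr (two_ne_zero_of_charP (p := p) D.odd)) hx₀0)
  have hinv : ∀ x : k, diagX x ∈ adInvariants A r := fun x => ⟨trace_diagX x, fun σ hσ => by
    ext i j
    fin_cases i <;> fin_cases j <;>
      simp [diagX, Matrix.mul_apply, Fin.sum_univ_two, hs σ hσ, D.lower σ hσ, mul_comm]⟩
  let rep : k → (Γℚ → Matrix (Fin 2) (Fin 2) k) := fun a =>
    if h : ∃ c, IsFlatCocycle A r c ∧ u c = a then h.choose else c₀
  have hrep : ∀ c, IsFlatCocycle A r c → IsFlatCocycle A r (rep (u c)) ∧ u (rep (u c)) = u c := by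
    intro c hc
    have hex : ∃ c', IsFlatCocycle A r c' ∧ u c' = u c := ⟨c, hc, rfl⟩
    simp only [rep, dif_pos hex]
    exact hex.choose_spec
  let Ψ : (Γℚ → Matrix (Fin 2) (Fin 2) k) → k × D.Ω := fun c =>
    if h : IsFlatCocycle A r c then
      (u c, ⟨_, D.phi_omega_eq ((D.ordClass_norm L hL h).sub (D.ordClass_norm L hL (hrep c h).1))
        (by simp only [Pi.sub_apply, Matrix.sub_apply]
            exact sub_eq_zero.mpr (hrep c h).2.symm)⟩)
    else (0, ⟨ψ 0, hψmem 0⟩)
  refine ⟨Nat.card (k × D.Ω), ?_, fun c => Finite.equivFin _ (Ψ c), fun c c' hc hc' e => ?_⟩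
  · rw [Nat.card_prod]
    refine Nat.mul_le_mul ?_ hΩ
    exact Nat.card_le_card_of_injective (fun x => (⟨diagX x, hinv x⟩ : adInvariants A r))
      fun x y e => by simpa [diagX] using congrFun (congrFun (congrArg Subtype.val e) 0) 0
  · have e' := (Finite.equivFin _).injective e
    simp only [Ψ, dif_pos hc, dif_pos hc'] at e'
    have hu : u c = u c' := congrArg Prod.fst e'
    have hω' := congrArg Subtype.val (congrArg Prod.snd e')
    replace hω' : D.omega ((D.ordClass_norm L hL hc).sub (D.ordClass_norm L hL (hrep c hc).1)) =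
        D.omega ((D.ordClass_norm L hL hc').sub (D.ordClass_norm L hL (hrep c' hc').1)) := hω'
    rw [D.omega_sub (D.ordClass_norm L hL hc) (D.ordClass_norm L hL (hrep c hc).1),
      D.omega_sub (D.ordClass_norm L hL hc') (D.ordClass_norm L hL (hrep c' hc').1)] at hω'
    refine D.isAdCoboundary_sub_of_omega L hL hc₀ hc hc' hu 0 ?_
    rw [D.omega_sub (D.ordClass_norm L hL hc) (D.ordClass_norm L hL hc'),
      show D.omega (D.ordClass_diag L hL hc₀ 0) = 0 from ψ.map_zero]
    have : D.omega (D.ordClass_norm L hL (hrep c hc).1) =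
        D.omega (D.ordClass_norm L hL (hrep c' hc').1) := D.omega_congr _ _ (by rw [hu])
    rw [this] at hω'
    exact sub_eq_zero.mpr (sub_left_inj.mp hω')

end OrdData

end Fermat.FLAT
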