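import Fermat.Agent.FLAT.ORD.Line
import Fermat.Agent.FLAT.SS.Line
import Fermat.Agent.FLAT.SS.Restrict

/-!
# The data of an ordinary residual representation and the shape of flat cocycles

The representation is triangular on decomposition with inertia acting by `(cyclotomic, 1)`; the
move `γ` acts diagonally.  A flat cocycle which is diagonal at `γ` is triangular, with both diagonal
entries unramified.
-/

set_option autoImplicit false
set_option linter.unusedSectionVars false

noncomputable section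

open Fermat.EC.Val IsLocalRing Matrix

namespace Fermat.FLAT

local notation "ℚbar" => AlgebraicClosure ℚ
local notation "Γℚ" => (AlgebraicClosure ℚ ≃ₐ[ℚ] AlgebraicClosure ℚ)

variable {p : ℕ} [hp : Fact p.Prime] {A : ValuationSubring ℚbar} {k : Type*} [Field k] [CharP k p]

/-- The cyclotomic character at `σ` as a natural number. -/
def cycNat (p : ℕ) [Fact p.Prime] (σ : Γℚ) : ℕ :=
  ((Fermat.CFT.cycChar p σ : (ZMod p)ˣ) : ZMod p).val

/-- The coboundary of a matrix. -/
def adCob (r : Γℚ →* Matrix (Fin 2) (Fin 2) k) (X : Matrix (Fin 2) (Fin 2) k) :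
    Γℚ → Matrix (Fin 2) (Fin 2) k := fun σ => r σ * X * r σ⁻¹ - X

/-- The value of the coboundary of `X` at `σ`. -/
lemma adCob_apply (r : Γℚ →* Matrix (Fin 2) (Fin 2) k) (X : Matrix (Fin 2) (Fin 2) k) (σ : Γℚ) :
    adCob r X σ = r σ * X * r σ⁻¹ - X := rfl

/-- The trace zero matrices invariant under the decomposition group. -/
def adInvariants (A : ValuationSubring ℚbar) (r : Γℚ →* Matrix (Fin 2) (Fin 2) k) :
    Set (Matrix (Fin 2) (Fin 2) k) :=
  {X | X.trace = 0 ∧ ∀ σ ∈ A.decompositionSubgroup ℚ, r σ * X = X * r σ}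

variable {r : Γℚ →* Matrix (Fin 2) (Fin 2) k}

/-- The coboundary of a matrix is an adjoint cocycle, trivial on the fixing group of a field on
which `r` is trivial. -/
lemma adCob_cocycle (L : IntermediateField ℚ ℚbar) [FiniteDimensional ℚ L] [Normal ℚ L]
    (hL : ∀ σ ∈ L.fixingSubgroup, r σ = 1) {X : Matrix (Fin 2) (Fin 2) k} :
    IsAdCocycle A r (adCob r X) where
  trace_eq σ _ := by rw [adCob_apply, Matrix.trace_sub, trace_conj, sub_self]
  map_mul σ _ τ _ := by
    simp only [adCob_apply, _root_.mul_inv_rev, map_mul, mul_sub, sub_mul, mul_assoc]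
    abel
  level := ⟨L, inferInstance, inferInstance, fun τ _ hτ => by
    simp [adCob_apply, hL τ hτ, hL τ⁻¹ (inv_mem hτ)]⟩

/-- Flatness is invariant under coboundaries. -/
theorem IsFlatCocycle.sub_adCob [Finite k] (L : IntermediateField ℚ ℚbar) [FiniteDimensional ℚ L]
    [Normal ℚ L] (hL : ∀ σ ∈ L.fixingSubgroup, r σ = 1) {c : Γℚ → Matrix (Fin 2) (Fin 2) k}
    (hc : IsFlatCocycle A r c) (X : Matrix (Fin 2) (Fin 2) k) :
    IsFlatCocycle A r (c - adCob r X) := by
  refine ⟨hc.1.sub (adCob_cocycle L hL), ?_⟩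
  obtain ⟨G⟩ := hc.2
  let ι : (Fin 2 → k) × (Fin 2 → k) →+ (Fin 2 → k) × (Fin 2 → k) :=
    AddMonoidHom.mk' (fun x => (x.1 - X *ᵥ x.2, x.2)) fun x y => by
      simp only [Prod.fst_add, Prod.snd_add, Matrix.mulVec_add, Prod.mk_add_mk]
      rw [add_sub_add_comm]
  refine ⟨G.restrict ι (fun a b hab => ?_) fun σ _ x => ?_⟩
  · have h2 : a.2 = b.2 := (congrArg Prod.snd hab :)
    have h1 : a.1 - X *ᵥ a.2 = b.1 - X *ᵥ b.2 := (congrArg Prod.fst hab :)
    rw [h2, sub_left_inj] at h1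
    exact Prod.ext h1 h2
  · obtain ⟨v, w⟩ := x
    refine Prod.ext ?_ rfl
    change (r σ *ᵥ v + (c - adCob r X) σ *ᵥ (r σ *ᵥ w)) - X *ᵥ (r σ *ᵥ w) =
      r σ *ᵥ (v - X *ᵥ w) + c σ *ᵥ (r σ *ᵥ w)
    rw [Pi.sub_apply, adCob_apply, Matrix.mulVec_sub, Matrix.sub_mulVec, Matrix.sub_mulVec,
      show (r σ * X * r σ⁻¹) *ᵥ (r σ *ᵥ w) = r σ *ᵥ (X *ᵥ w) by
        rw [Matrix.mulVec_mulVec, mul_assoc, ← map_mul, inv_mul_cancel, map_one, mul_one,
          Matrix.mulVec_mulVec]]
    abel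

/-- The data attached to an ordinary `r` at `A`. -/
structure OrdData (p : ℕ) [Fact p.Prime] (A : ValuationSubring ℚbar)
    (r : Γℚ →* Matrix (Fin 2) (Fin 2) k) where
  /-- A root of order `p - 1` of `p`. -/
  π : ℚbar
  /-- The root of unity by which `γ` moves `π`. -/
  z : ℚbar
  /-- A `p`-th root of unity. -/
  ξ : ℚbar
  /-- An element of inertia moving `π` by `z`. -/
  γ : Γℚ
  /-- A Frobenius element fixing `π`. -/
  φ : Γℚ
  /-- `A` lies over the prime `p`. -/
  place : IsPlace A p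
  /-- `p` is odd. -/
  odd : p ≠ 2
  /-- `π ^ (p - 1) = p`. -/
  pi_pow : π ^ (p - 1) = (p : ℚbar)
  /-- `z` is a primitive root of unity of order `p - 1`. -/
  prim_z : IsPrimitiveRoot z (p - 1)
  /-- `ξ` is a primitive `p`-th root of unity. -/
  root : IsPrimitiveRoot ξ p
  /-- `γ` is in inertia. -/
  γ_mem : γ ∈ A.inertiaSubgroupIn ℚ
  /-- `γ` multiplies `π` by `z`. -/
  γ_pi : γ π = z * π
  /-- `φ` is a Frobenius element at `A`. -/
  frob : A.IsFrobeniusAt φ p
  /-- `φ` fixes `π`. -/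
  φ_pi : φ π = π
  /-- `r` is upper triangular on the decomposition group. -/
  lower : ∀ σ ∈ A.decompositionSubgroup ℚ, r σ 1 0 = 0
  /-- The lower right character is trivial on inertia. -/
  inertia_one : ∀ σ ∈ A.inertiaSubgroupIn ℚ, r σ 1 1 = 1
  /-- The upper left character is cyclotomic on inertia. -/
  inertia_cyc : ∀ σ ∈ A.inertiaSubgroupIn ℚ, r σ 0 0 = (cycNat p σ : k)
  /-- `r γ` is diagonal. -/
  γ_diag : r γ 0 1 = 0

namespace OrdData

variable (D : OrdData p A r)
include D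

/-- `2 ≤ p - 1`, as `p` is odd. -/
lemma two_le : 2 ≤ p - 1 := by have := hp.out.two_le; have := D.odd; omega

/-- The root of unity `z` reduces to the cyclotomic character at `γ`. -/
lemma red_z : red A D.z = (cycNat p D.γ : ResidueField A) := by
  rw [cycNat, cycChar_cast_eq_psi D.place D.γ_mem D.pi_pow, psi, D.γ_pi,
    mul_div_cancel_right₀ _ (is_pi D.place sub_one_ne_zero' D.pi_pow).1]

/-- The reduction of `z` has order `p - 1`. -/
lemma dvd_of_red_pow {m : ℕ} (hm : red A D.z ^ m = 1) : p - 1 ∣ m :=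
  D.prim_z.dvd_of_pow_eq_one m (red_root_eq_one D.place not_dvd_sub_one
    (by rw [← pow_mul, mul_comm, pow_mul, D.prim_z.pow_eq_one, one_pow])
    (by rw [red_pow D.place (is_root_unity D.place sub_one_ne_zero' D.prim_z.pow_eq_one).ge, hm]))

/-- The cyclotomic character at `γ` is not `1` in `k`. -/
lemma χ_ne_one : (cycNat p D.γ : k) ≠ 1 := fun e => by
  have h1 : ((cycNat p D.γ : ZMod p)) = 1 := (ZMod.castHom (dvd_refl p) k).injective (by
    rw [map_natCast, map_one, e])
  have := charP_res D.place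
  have h2 := congrArg (ZMod.castHom (dvd_refl p) (ResidueField A)) h1
  rw [map_natCast, map_one, ← D.red_z] at h2
  have := Nat.le_of_dvd one_pos (D.dvd_of_red_pow (m := 1) (by rwa [pow_one]))
  have := D.two_le
  omega

omit D in
/-- Values of the cyclotomic character are nonzero in `k`. -/
lemma χ_ne_zero (σ : Γℚ) : (cycNat p σ : k) ≠ 0 := by
  have : NeZero p := ⟨hp.out.ne_zero⟩
  rw [cycNat, ← map_natCast (ZMod.castHom (dvd_refl p) k), ZMod.natCast_zmod_val]
  exact (map_ne_zero _).mpr (Fermat.CFT.cycChar p σ).ne_zero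

/-- The tame group lies in the decomposition group. -/
lemma tame_dec {τ : Γℚ} (hτ : τ ∈ tame A D.π) : τ ∈ A.decompositionSubgroup ℚ :=
  inertia_le_decomposition A hτ.1

/-- `γ` lies in the decomposition group. -/
lemma γ_dec : D.γ ∈ A.decompositionSubgroup ℚ := inertia_le_decomposition A D.γ_mem

/-- `φ` lies in the decomposition group. -/
lemma φ_dec : D.φ ∈ A.decompositionSubgroup ℚ := D.frob.mem_decompositionSubgroup

/-- The upper left entry of `r` is `1` on the tame group. -/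
lemma tame_one {τ : Γℚ} (hτ : τ ∈ tame A D.π) : r τ 0 0 = 1 := by
  have : NeZero p := ⟨hp.out.ne_zero⟩
  have hπ0 := (is_pi D.place sub_one_ne_zero' D.pi_pow).1
  have h1 : (cycNat p τ : ResidueField A) = 1 := by
    rw [cycNat, cycChar_cast_eq_psi D.place hτ.1 D.pi_pow, psi, (mem_tame.mp hτ).2, div_self hπ0,
      red_one]
  have := charP_res D.place
  have h2 : (cycNat p τ : ZMod p) = 1 := (ZMod.castHom (dvd_refl p) (ResidueField A)).injective (by
    rw [map_natCast, map_one, h1])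
  rw [D.inertia_cyc τ hτ.1, ← map_natCast (ZMod.castHom (dvd_refl p) k), h2, map_one]

/-- The relations between the entries of `r σ` and of `r σ⁻¹` on decomposition. -/
lemma r_entries {σ : Γℚ} (hσ : σ ∈ A.decompositionSubgroup ℚ) :
    r σ 0 0 * r σ⁻¹ 0 0 = 1 ∧ r σ 1 1 * r σ⁻¹ 1 1 = 1 ∧
      r σ 0 0 * r σ⁻¹ 0 1 + r σ 0 1 * r σ⁻¹ 1 1 = 0 := by
  have h1 : r σ * r σ⁻¹ = 1 := by rw [← map_mul, mul_inv_cancel, map_one]
  have h00 := congrFun (congrFun h1 0) 0
  have h01 := congrFun (congrFun h1 0) 1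
  have h11 := congrFun (congrFun h1 1) 1
  simp [Matrix.mul_apply, Fin.sum_univ_two, D.lower σ hσ, D.lower σ⁻¹ (inv_mem hσ)] at h00 h01 h11
  exact ⟨h00, h11, h01⟩

/-- The diagonal entries of `r σ` are nonzero on decomposition. -/
lemma diag_ne_zero {σ : Γℚ} (hσ : σ ∈ A.decompositionSubgroup ℚ) :
    r σ 0 0 ≠ 0 ∧ r σ 1 1 ≠ 0 :=
  ⟨left_ne_zero_of_mul_eq_one (D.r_entries hσ).1, left_ne_zero_of_mul_eq_one (D.r_entries hσ).2.1⟩

/-- Conjugation of triangular matrices. -/
lemma conj_apply {σ : Γℚ} (hσ : σ ∈ A.decompositionSubgroup ℚ) {X : Matrix (Fin 2) (Fin 2) k}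
    (hX : X 1 0 = 0) :
    (r σ * X * r σ⁻¹) 1 0 = 0 ∧ (r σ * X * r σ⁻¹) 0 0 = X 0 0 ∧
      (r σ * X * r σ⁻¹) 1 1 = X 1 1 ∧
      (r σ * X * r σ⁻¹) 0 1 = (r σ 0 0 * X 0 1 + r σ 0 1 * (X 1 1 - X 0 0)) / r σ 1 1 := by
  obtain ⟨h00, h11, h01⟩ := D.r_entries hσ
  have hb := (D.diag_ne_zero hσ).2
  simp only [Matrix.mul_apply, Fin.sum_univ_two, D.lower σ hσ, D.lower σ⁻¹ (inv_mem hσ), hX,
    mul_zero, zero_mul, add_zero, zero_add]
  refine ⟨trivial, ?_, ?_, ?_⟩
  · linear_combination X 0 0 * h00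
  · linear_combination X 1 1 * h11
  · rw [eq_div_iff hb]
    linear_combination (X 0 0 * r σ 1 1) * h01 + (r σ 0 0 * X 0 1 + r σ 0 1 * (X 1 1 - X 0 0)) * h11

/-- The normalised shape of a trace zero cocycle: lower left entry zero on the decomposition group,
lower right entry zero on inertia, value zero at `γ`. -/
structure Shape (D : OrdData p A r) (c : Γℚ → Matrix (Fin 2) (Fin 2) k) : Prop where
  /-- `c` is a trace zero cocycle. -/
  cocycle : IsAdCocycle A r c
  /-- Its lower left entry vanishes on the decomposition group. -/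
  lower : ∀ σ ∈ A.decompositionSubgroup ℚ, c σ 1 0 = 0
  /-- Its lower right entry vanishes on inertia. -/
  unram : ∀ σ ∈ A.inertiaSubgroupIn ℚ, c σ 1 1 = 0
  /-- It vanishes at `γ`. -/
  gamma : c D.γ = 0

namespace Shape

variable {D} {c : Γℚ → Matrix (Fin 2) (Fin 2) k} (hS : D.Shape c)
include hS

/-- The upper left entry vanishes on inertia, the trace being zero. -/
lemma diag_zero {σ : Γℚ} (hσ : σ ∈ A.inertiaSubgroupIn ℚ) : c σ 0 0 = 0 := by
  have := hS.cocycle.trace_eq σ (inertia_le_decomposition A hσ)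
  rwa [Matrix.trace_fin_two, hS.unram σ hσ, add_zero] at this

/-- The lower right entry is minus the upper left one. -/
lemma apply_one_one {σ : Γℚ} (hσ : σ ∈ A.decompositionSubgroup ℚ) : c σ 1 1 = -c σ 0 0 := by
  have := hS.cocycle.trace_eq σ hσ
  rw [Matrix.trace_fin_two] at this
  linear_combination this

/-- The cocycle rule for the two upper entries. -/
lemma map_mul_apply {σ τ : Γℚ} (hσ : σ ∈ A.decompositionSubgroup ℚ)
    (hτ : τ ∈ A.decompositionSubgroup ℚ) :
    c (σ * τ) 0 0 = c σ 0 0 + c τ 0 0 ∧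
      c (σ * τ) 0 1 = c σ 0 1 + (r σ 0 0 * c τ 0 1 - 2 * r σ 0 1 * c τ 0 0) / r σ 1 1 := by
  obtain ⟨-, h00, -, h01⟩ := D.conj_apply hσ (hS.lower τ hτ)
  rw [hS.cocycle.map_mul σ hσ τ hτ, Matrix.add_apply, Matrix.add_apply, h00, h01,
    hS.apply_one_one hτ]
  exact ⟨rfl, by ring⟩

/-- The upper right entry is additive in a product with a tame first factor, when the second has
vanishing diagonal. -/
lemma map_mul_tame {σ τ : Γℚ} (hσ : σ ∈ tame A D.π) (hτ : τ ∈ A.decompositionSubgroup ℚ)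
    (hu : c τ 0 0 = 0) : c (σ * τ) 0 1 = c σ 0 1 + c τ 0 1 := by
  rw [(hS.map_mul_apply (D.tame_dec hσ) hτ).2, hu, D.tame_one hσ, D.inertia_one σ hσ.1]
  ring

/-- Differences of cocycles of this shape have this shape. -/
lemma sub {c' : Γℚ → Matrix (Fin 2) (Fin 2) k} (hS' : D.Shape c') : D.Shape (c - c') where
  cocycle := hS.cocycle.sub hS'.cocycle
  lower σ hσ := by rw [Pi.sub_apply, Matrix.sub_apply, hS.lower σ hσ, hS'.lower σ hσ, sub_zero]
  unram σ hσ := by rw [Pi.sub_apply, Matrix.sub_apply, hS.unram σ hσ, hS'.unram σ hσ, sub_zero]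
  gamma := by rw [Pi.sub_apply, hS.gamma, hS'.gamma, sub_zero]

end Shape

variable [Finite k]

/-- **The shape of flat cocycles diagonal at `γ`.** -/
theorem shape_of_flat {c : Γℚ → Matrix (Fin 2) (Fin 2) k} (hc : IsFlatCocycle A r c)
    (h01 : c D.γ 0 1 = 0) (h10 : c D.γ 1 0 = 0) : D.Shape c := by
  classical
  obtain ⟨G⟩ := hc.2
  have h := D.place
  have hI := fun {σ : Γℚ} (hσ : σ ∈ A.inertiaSubgroupIn ℚ) => inertia_le_decomposition A hσ
  -- quotients by the second coordinate, where inertia acts trivially, kill the connected part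
  let g₁ : Γℚ → AddMonoid.End k := fun σ => AddMonoidHom.mulLeft (r σ 1 1)
  let e₁ : (Fin 2 → k) →+ k := Pi.evalAddMonoidHom (fun _ => k) 1
  have he₁ : Function.Surjective e₁ := fun a => ⟨fun _ => a, rfl⟩
  have hcomp : ∀ σ ∈ A.decompositionSubgroup ℚ, ∀ v : Fin 2 → k,
      (r σ *ᵥ v) 1 = r σ 1 1 * v 1 := fun σ hσ v => by
    simp [Matrix.mulVec, dotProduct, Fin.sum_univ_two, D.lower σ hσ]
  have hM : ∀ a : k, p • a = 0 := fun a => by rw [nsmul_eq_mul, CharP.cast_eq_zero k p, zero_mul]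
  let G₁ := G.restrict (g' := resAct r) (AddMonoidHom.inl (Fin 2 → k) (Fin 2 → k))
    (fun a b hab => congrArg Prod.fst hab) fun σ _ x => by simp
  let G₁' := G₁.quot (g' := g₁) h e₁ he₁ fun σ hσ v => hcomp σ hσ v
  let G₂ := G.quot (g' := g₁) h (e₁.comp (AddMonoidHom.snd _ _))
    (fun a => ⟨(0, fun _ => a), rfl⟩) fun σ hσ x => hcomp σ hσ x.2
  have hzero : ∀ (G' : Model A (A.decompositionSubgroup ℚ) g₁) (a : k), a ∈ G'.conn h → a = 0 :=
    fun G' a ha => G'.eq_zero_of_fixed hM h D.odd ha fun σ hσ => by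
      change r σ 1 1 * a = a
      rw [D.inertia_one σ hσ, one_mul]
  have hsub : ∀ v, (v, 0) ∈ G.conn h → v 1 = 0 := fun v hv =>
    hzero G₁' _ (G₁.conn_quot (g' := g₁) e₁ he₁ (fun σ hσ v => hcomp σ hσ v) h
      (G.conn_restrict _ _ _ h hv))
  have hsnd : ∀ x, x ∈ G.conn h → x.2 1 = 0 := fun x hx =>
    hzero G₂ _ (G.conn_quot (g' := g₁) _ _ _ h hx)
  have hγi := isInert_of_mem_inertia D.γ_mem
  set χ : k := (cycNat p D.γ : k) with hχd
  have hγ00 : r D.γ 0 0 = χ := D.inertia_cyc _ D.γ_mem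
  have hχ1 : χ - 1 ≠ 0 := sub_ne_zero.mpr D.χ_ne_one
  -- vectors on the first axis are moves by `γ`, so lie in the connected part
  have hmem : ∀ a b : k, ((![a, 0], ![b, 0]) : (Fin 2 → k) × (Fin 2 → k)) ∈ G.conn h := by
    intro a b
    have hA : ∀ a : k, ((![a, 0], 0) : (Fin 2 → k) × (Fin 2 → k)) ∈ G.conn h := fun a => by
      have := G.smul_sub_mem_conn h hγi (hI D.γ_mem) (![a / (χ - 1), 0], 0)
      convert this using 1
      refine Prod.ext (funext fun i => ?_) ?_
      · fin_cases i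
        · simp [hγ00]
          field_simp
        · simp [D.lower _ D.γ_dec]
      · simp
    have h1 := G.smul_sub_mem_conn h hγi (hI D.γ_mem) (0, ![b / (χ - 1), 0])
    have h2 := add_mem h1 (hA (a - c D.γ 0 0 * (χ * (b / (χ - 1)))))
    convert h2 using 1
    refine Prod.ext (funext fun i => ?_) (funext fun i => ?_)
    · fin_cases i
      · simp [hγ00, D.lower _ D.γ_dec]
      · simp [h10, D.lower _ D.γ_dec]
    · fin_cases i
      · simp [hγ00]
        field_simp
      · simp [D.lower _ D.γ_dec]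
  -- hence the connected part has vanishing second coordinates
  have hv1 : ∀ x, x ∈ G.conn h → x.1 1 = 0 := fun x hx => by
    have h2 := hsnd x hx
    have h3 : (x.1 - ![x.1 0, 0], (0 : Fin 2 → k)) = x - (![x.1 0, 0], ![x.2 0, 0]) := by
      refine Prod.ext rfl (funext fun i => ?_)
      fin_cases i <;> simp [h2]
    have h4 := hsub _ (h3 ▸ sub_mem hx (hmem _ _))
    simpa using h4
  -- stability under decomposition gives the lower left entry
  have hlower : ∀ σ ∈ A.decompositionSubgroup ℚ, c σ 1 0 = 0 := fun σ hσ => by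
    have h5 := hv1 _ (G.conn_stable_decomposition h hσ hσ (hmem 0 1))
    simp [D.lower σ hσ] at h5
    exact h5.resolve_right (D.diag_ne_zero hσ).1
  -- moves by inertia give the lower right entry
  have hunram : ∀ σ ∈ A.inertiaSubgroupIn ℚ, c σ 1 1 = 0 := fun σ hσ => by
    have h5 := hv1 _ (G.smul_sub_mem_conn h (isInert_of_mem_inertia hσ) (hI hσ) (0, ![0, 1]))
    simp [hlower σ (hI hσ),
      D.inertia_one σ hσ] at h5
    exact h5
  refine ⟨hc.1, hlower, hunram, Matrix.ext fun i j => ?_⟩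
  have ht := hc.1.trace_eq _ D.γ_dec
  rw [Matrix.trace_fin_two, hunram _ D.γ_mem, add_zero] at ht
  fin_cases i <;> fin_cases j <;> simp [ht, h01, h10, hunram _ D.γ_mem]

end OrdData

end Fermat.FLAT
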