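import Fermat.Agent.FLAT.ORD.Data
import Fermat.Agent.FLAT.SS.Bound

/-!
# Kummer classes of ordinary flat cocycles: units of level `p - 1`

The level is below `p` (`level_lt_p`), and `lead_frob` makes Frobenius semilinear on leading
residues.
-/

set_option autoImplicit false

noncomputable section

open Fermat.EC.Val IsLocalRing

namespace Fermat.FLAT

local notation "ℚbar" => AlgebraicClosure ℚ
local notation "Γℚ" => (AlgebraicClosure ℚ ≃ₐ[ℚ] AlgebraicClosure ℚ)

variable {p : ℕ} [hp : Fact p.Prime] {A : ValuationSubring ℚbar}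

/-- A step by the `p`-th root of a non-unit moves integral elements by more than `1/(p-1)`. -/
theorem Step.gt_sub_nonunit {K' : Subgroup Γℚ} {y ξ : ℚbar} {σ : Γℚ} (S : Step p K' y ξ σ)
    (h : IsPlace A p) {n : ℕ}
    (hL : ∀ x ≠ 0, (∀ τ ∈ K', τ x = x) → ∃ m : ℤ, ord A p x = (m : ℚ) / n) {r : ℚ} (hw : Is A p y r)
    (hr : ∀ b : ℕ, 0 < b → b < p → ∀ m : ℤ, (b : ℚ) * r ≠ (m : ℚ) / n)
    {z : ℚbar} (hz0 : Ge A p z 0) (hz : ∀ τ ∈ K', τ y = y → τ z = z) :
    Gt A p (σ z - z) (1 / ((p : ℚ) - 1)) := by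
  obtain ⟨c, hc, hzc⟩ := S.exists_expansion hw.1 hz
  have hterm := ge_term_of_distinct h (s := Finset.range p) (f := fun b => c b * y ^ b)
    (fun i hi j hj hi0 hj0 he => ord_terms_injective (n := n) h hL hw hr hc (Finset.mem_range.mp hi)
      (Finset.mem_range.mp hj) hi0 hj0 he) (hzc ▸ hz0)
  rw [hzc, map_sum, ← Finset.sum_sub_distrib]
  refine Gt.sum h fun b hb => ?_
  rw [map_mul, hc b σ S.mem, map_pow, S.apply_eq]
  rcases Nat.eq_zero_or_pos b with rfl | hb0
  · simp [gt_zero]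
  rcases eq_or_ne (c b) 0 with h0 | h0
  · simp [h0, gt_zero]
  have hbp := Finset.mem_range.mp hb
  have hcy : c b * y ^ b ≠ 0 := mul_ne_zero h0 (pow_ne_zero _ hw.1)
  obtain ⟨m, hm⟩ := hL _ h0 (hc b)
  have hord : ord A p (c b * y ^ b) = (m : ℚ) / n + b * r := by
    rw [ord_mul h h0 (pow_ne_zero _ hw.1), ord_pow h, hw.2, hm]
  have hpos : 0 < ord A p (c b * y ^ b) := by
    refine lt_of_le_of_ne ((hterm b hb).resolve_left hcy) fun e0 => hr b hb0 hbp (-m) ?_
    push_cast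
    rw [neg_div]
    linarith
  have hζ : IsPrimitiveRoot (ξ ^ b) p := S.root.pow_of_coprime b
    (Nat.coprime_comm.mp (hp.out.coprime_iff_not_dvd.mpr fun hd =>
      absurd (Nat.le_of_dvd hb0 hd) (not_le.mpr hbp)))
  have h1 : Is A p ((ξ ^ b - 1) * (c b * y ^ b)) (1 / ((p : ℚ) - 1) + ord A p (c b * y ^ b)) :=
    (Fermat.EC.Cyclo.is_zeta_sub_one h hζ).mul h ⟨hcy, rfl⟩
  rw [show c b * (ξ * y) ^ b - c b * y ^ b = (ξ ^ b - 1) * (c b * y ^ b) by rw [mul_pow]; ring]
  exact h1.gt (by linarith)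

/-- A class whose generator has valuation divisible by `p` has a unit generator congruent to `1`. -/
theorem TameMap.Kum.exists_gt_of_dvd {X : Type*} [AddCommGroup X] {π : ℚbar} {C : TameMap p A π X}
    {f : X →+ ZMod p} {y : ℚbar} (hy : C.Kum f y) (h : IsPlace A p) (hπ : π ^ (p - 1) = (p : ℚbar))
    {m : ℤ} (hdvd : (p : ℤ) ∣ m) (hmy : ord A p (y ^ p) = (m : ℚ) / (p - 1 : ℕ)) :
    ∃ y, C.Kum f y ∧ Gt A p (y ^ p - 1) 0 := by
  obtain ⟨m', rfl⟩ := hdvd
  rw [ord_pow h] at hmy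
  have hπ1 := is_pi h sub_one_ne_zero' hπ
  set y₁ := y * (π ^ m')⁻¹ with hy₁
  have hy₁K : C.Kum f y₁ := hy.mul_fixed (inv_ne_zero (zpow_ne_zero _ hπ1.1))
    fun σ hσ => by rw [map_inv₀, map_zpow₀, (mem_tame.mp hσ).2]
  have hI : Is A p (y₁ ^ p) 0 := by
    refine ⟨pow_ne_zero _ hy₁K.1, ?_⟩
    rw [ord_pow h, hy₁, ord_mul h hy.1 (inv_ne_zero (zpow_ne_zero _ hπ1.1)), ord_inv h,
      ord_zpow h, hπ1.2, mul_one_div]
    rw [mul_add, hmy, mul_neg]
    push_cast; ring
  obtain ⟨ω, hω, hωfix, hyω⟩ := exists_fixed_pow_near h hI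
  refine ⟨y₁ * ω⁻¹, hy₁K.mul_fixed (inv_ne_zero hω.1) fun σ hσ => by
    rw [map_inv₀, hωfix σ (isInert_of_mem_tame hσ)], ?_⟩
  have := Gt.div h hyω (hω.pow h p)
  rw [mul_zero, sub_zero] at this
  convert this using 1
  rw [mul_pow, inv_pow, ← div_eq_mul_inv, div_sub_one (pow_ne_zero _ hω.1)]

variable {k : Type*} [Field k] [CharP k p] {r : Γℚ →* Matrix (Fin 2) (Fin 2) k}

namespace OrdData

variable {D : OrdData p A r} {c : Γℚ → Matrix (Fin 2) (Fin 2) k} (hS : D.Shape c)
include hS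

omit [CharP k p] in
/-- A cocycle of this shape vanishes at `1`. -/
lemma Shape.one : c 1 = 0 := by
  have := hS.cocycle.map_mul 1 (one_mem _) 1 (one_mem _)
  rw [mul_one, inv_one, map_one, one_mul, mul_one] at this
  exact left_eq_add.mp this

/-- The upper right entry on the tame group. -/
def ordMap : TameMap p A D.π k where
  c σ := c σ 0 1
  ξ := D.ξ
  root := D.root
  fix_root := fun τ hτ =>
    apply_zeta_p D.place sub_one_ne_zero' D.pi_pow (dvd_refl _) hτ D.root.pow_eq_one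
  map_mul := fun σ hσ τ hτ => hS.map_mul_tame hσ (D.tame_dec hτ) (hS.diag_zero hτ.1)
  level := hS.cocycle.level.choose
  finite := hS.cocycle.level.choose_spec.1
  normal := hS.cocycle.level.choose_spec.2.1
  map_fix := fun σ hσ hσ' => by
    rw [hS.cocycle.level.choose_spec.2.2 σ (D.tame_dec hσ) hσ', Matrix.zero_apply]

/-- The move of the upper right entry. -/
theorem ordMap_move :
    (ordMap hS).Move D.γ D.z (cycNat p D.γ) (AddMonoidHom.mulLeft (cycNat p D.γ : k)⁻¹) where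
  mem := D.γ_mem
  apply_pi := D.γ_pi
  apply_root := Fermat.CFT.apply_eq_pow_cycChar D.γ D.root.pow_eq_one
  conj_mem := fun σ hσ => by
    refine mem_tame.mpr ⟨mul_mem (mul_mem (inv_mem D.γ_mem) hσ.1) D.γ_mem, ?_⟩
    change D.γ.symm (σ (D.γ D.π)) = D.π
    rw [AlgEquiv.symm_apply_eq, D.γ_pi, _root_.map_mul, (mem_tame.mp hσ).2,
      apply_root_eq D.place not_dvd_sub_one D.prim_z.pow_eq_one (isInert_of_mem_tame hσ)]
  conj := fun σ hσ => by
    change c (D.γ⁻¹ * σ * D.γ) 0 1 = (cycNat p D.γ : k)⁻¹ * c σ 0 1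
    have hγ := D.γ_dec
    have hσD := D.tame_dec hσ
    have h0 : c D.γ⁻¹ = 0 := by
      have h1 := hS.cocycle.map_mul _ (inv_mem hγ) _ hγ
      rw [inv_mul_cancel, hS.one, hS.gamma, mul_zero, zero_mul, add_zero] at h1
      exact h1.symm
    have hsg : c (σ * D.γ) = c σ := by
      rw [hS.cocycle.map_mul _ hσD _ hγ, hS.gamma, mul_zero, zero_mul, add_zero]
    rw [mul_assoc, (hS.map_mul_apply (inv_mem hγ) (mul_mem hσD hγ)).2, h0, hsg,
      hS.diag_zero hσ.1, D.inertia_one _ (inv_mem D.γ_mem), Matrix.zero_apply]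
    have h2 := (D.r_entries hγ).1
    rw [D.inertia_cyc _ D.γ_mem] at h2
    rw [eq_inv_of_mul_eq_one_right h2]
    ring

omit hS

/-- The coefficient killing the upper right entry. -/
def b₁ (D : OrdData p A r) : ZMod p := -(cycNat p D.γ : ZMod p)⁻¹

include hS

/-- Every character `β` is killed by the move of `γ` with coefficient `b₁`: `β (χ⁻¹ x) + b₁ β x =
0`. -/
lemma killed (β : k →+ ZMod p) :
    (ordMap hS).Killed (AddMonoidHom.mulLeft (cycNat p D.γ : k)⁻¹) D.b₁.val 0 β := by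
  intro σ _
  have : NeZero p := ⟨hp.out.ne_zero⟩
  set ι := ZMod.castHom (dvd_refl p) k
  simp only [AddMonoidHom.coe_mulLeft, ZMod.natCast_zmod_val, Nat.cast_zero, zero_mul, add_zero]
  rw [b₁, ← apply_cast_mul β, map_neg, map_inv₀, map_natCast, neg_mul, map_neg, add_neg_cancel]

/-- **Flat classes have unit generators.** Every functional of an ordinary flat class has a Kummer
generator `y` with `y ^ p - 1` of positive order. -/
theorem exists_unit_gen [Finite k] (G : Model A (A.decompositionSubgroup ℚ) (dualAct r c))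
    (β : k →+ ZMod p) : ∃ y, (ordMap hS).Kum β y ∧ Gt A p (y ^ p - 1) 0 := by
  classical
  have : NeZero p := ⟨hp.out.ne_zero⟩
  have h := D.place
  have he0 : p - 1 ≠ 0 := sub_one_ne_zero'
  obtain ⟨y, hy⟩ := TameMap.exists_kum (ordMap hS) β
  obtain ⟨m, hmy⟩ := exists_int_ord_tame h not_dvd_sub_one D.pi_pow
    (pow_ne_zero p hy.1) hy.pow_fixed
  -- if `p` divides the valuation of `yᵖ`, rescale to a unit congruent to `1`
  by_cases hdvd : (p : ℤ) ∣ m
  · exact hy.exists_gt_of_dvd h D.pi_pow hdvd hmy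
  -- a trivial class has the generator `1`
  by_cases hall : ∀ σ ∈ tame A D.π, β ((ordMap hS).c σ) = 0
  · exact ⟨1, TameMap.kum_one.congr fun σ hσ => by rw [hall σ hσ]; rfl, Or.inl (by simp)⟩
  exfalso
  push Not at hall
  obtain ⟨σ₀, hσ₀, hne⟩ := hall
  set σ := σ₀ ^ ((β ((ordMap hS).c σ₀))⁻¹).val
  have hσ : σ ∈ tame A D.π := pow_mem hσ₀ _
  have h1 : β (c σ 0 1) = 1 := TameMap.apply_pow_inv_eq_one (C := ordMap hS) hσ₀ hne
  have hI := fun {τ : Γℚ} (hτ : τ ∈ A.inertiaSubgroupIn ℚ) => inertia_le_decomposition A hτ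
  -- otherwise push the model forward along `(v, w) ↦ (β v₀, v₁, w₁)`
  let q : (Fin 2 → k) × (Fin 2 → k) →+ ZMod p × (k × k) :=
    AddMonoidHom.mk' (fun x => (β (x.1 0), (x.1 1, x.2 1))) fun x x' => by simp
  have hq : Function.Surjective q := by
    have hβ : Function.Surjective β := fun a => ⟨a.val • c σ 0 1, by
      rw [map_nsmul, h1, nsmul_one, ZMod.natCast_zmod_val]⟩
    rintro ⟨a, b, d⟩
    obtain ⟨a', ha'⟩ := hβ a
    exact ⟨(![a', b], ![0, d]), by simp [q, ha']⟩
  have hqker : ∀ τ ∈ A.inertiaSubgroupIn ℚ, q.ker ≤ (q.comp (dualAct r c τ)).ker := by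
    rintro τ hτ ⟨v, w⟩ hx
    rw [AddMonoidHom.mem_ker] at hx ⊢
    obtain ⟨hv0, hv1, hw1⟩ : β (v 0) = 0 ∧ v 1 = 0 ∧ w 1 = 0 :=
      let h' := Prod.mk.inj hx; ⟨h'.1, Prod.mk.inj h'.2⟩
    change q (dualAct r c τ (v, w)) = 0
    have : β (r τ 0 0 * v 0) = 0 := by
      rw [D.inertia_cyc τ hτ, apply_natCast_mul, hv0, mul_zero]
    simp [q, hv1, hw1, D.lower τ (hI hτ),
      hS.lower τ (hI hτ), hS.diag_zero hτ, this]
  let g' : Γℚ → AddMonoid.End (ZMod p × (k × k)) := fun τ =>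
    if hτ : τ ∈ A.inertiaSubgroupIn ℚ
      then q.liftOfSurjective hq ⟨q.comp (dualAct r c τ), hqker τ hτ⟩
    else 1
  have hg' : ∀ τ ∈ A.inertiaSubgroupIn ℚ, ∀ x, q (dualAct r c τ x) = g' τ (q x) := by
    intro τ hτ x
    rw [show g' τ = q.liftOfSurjective hq ⟨q.comp (dualAct r c τ), hqker τ hτ⟩ from dif_pos hτ]
    exact (AddMonoidHom.liftOfRightInverse_comp_apply q (Function.surjInv hq)
      (Function.rightInverse_surjInv hq) ⟨q.comp (dualAct r c τ), hqker τ hτ⟩ x).symm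
  obtain ⟨G₁⟩ := G.nonempty_restrictH le_rfl (inertia_le_decomposition A)
  let G' := G₁.quot h q hq (g' := g') hg'
  have hM : ∀ x : ZMod p × (k × k), p • x = 0 := fun x =>
    Prod.ext (by simp) (Prod.ext (by simp) (by simp))
  set x₀ := q (0, ![0, 1])
  have hact : ∀ τ ∈ tame A D.π, g' τ x₀ = x₀ + (β (c τ 0 1), 0) := fun τ hτ => by
    rw [← hg' τ hτ.1]
    simp [q, x₀, D.inertia_one τ hτ.1,
      hS.lower τ (hI hτ.1), hS.unram τ hτ.1, hS.diag_zero hτ.1]
  -- a non-unit generator moves integral elements by more than `1/(p-1)`: no move is left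
  have hzero : g' σ x₀ - x₀ = 0 := by
    refine G'.eq_zero_of_sdom hM h (G'.sdom_smul_sub h hσ.1 fun a ha => ?_)
    refine (hy.step hσ h1).gt_sub_nonunit (n := p - 1) h
      (fun x hx0 hx => exists_int_ord_tame h not_dvd_sub_one D.pi_pow hx0 hx) (r := ord A p y)
      ⟨hy.1, rfl⟩ (fun b hb hbp m' hm' => ?_) (G'.ge_zero h ha x₀) fun τ hτ e1 => ?_
    · rw [ord_pow h] at hmy
      have he : ((p - 1 : ℕ) : ℚ) ≠ 0 := Nat.cast_ne_zero.mpr he0
      have h2 : (b : ℚ) * ((m : ℚ) / ((p - 1 : ℕ) : ℚ)) = p * ((m' : ℚ) / ((p - 1 : ℕ) : ℚ)) := by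
        rw [← hmy, ← hm']; ring
      rw [mul_div, mul_div, div_left_inj' he] at h2
      have h3 : (b : ℤ) * m = p * m' := by exact_mod_cast h2
      rcases Int.Prime.dvd_mul' hp.out ⟨m', h3⟩ with hd | hd
      · exact absurd (Nat.le_of_dvd hb (Int.natCast_dvd_natCast.mp hd)) (not_le.mpr hbp)
      · exact hdvd hd
    · rw [← G'.equivariant a ha τ hτ.1, hact τ hτ,
        show β (c τ 0 1) = 0 from hy.zero_of_apply_eq hτ e1]
      congr 1
      exact add_eq_left.mpr rfl
  rw [hact σ hσ, add_sub_cancel_left, h1] at hzero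
  exact one_ne_zero (congrArg Prod.fst hzero)

omit hS

/-- A cocycle of the right shape all whose classes have level at least `p - 1`. -/
structure OrdClass (D : OrdData p A r) (c : Γℚ → Matrix (Fin 2) (Fin 2) k) : Prop where
  /-- `c` has the normalised shape. -/
  shape : D.Shape c
  /-- Every functional of its upper right entry has level at least `p - 1` for `e = p - 1`. -/
  lev : ∀ β : k →+ ZMod p, (ordMap shape).Lev (p - 1) (p - 1) β

/-- **Flat cocycles diagonal at `γ` have classes of level `p - 1`.** -/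
theorem ordClass_of_flat [Finite k] (D : OrdData p A r) {c : Γℚ → Matrix (Fin 2) (Fin 2) k}
    (hc : IsFlatCocycle A r c) (h01 : c D.γ 0 1 = 0) (h10 : c D.γ 1 0 = 0) : D.OrdClass c := by
  have : NeZero p := ⟨hp.out.ne_zero⟩
  have hS := D.shape_of_flat hc h01 h10
  obtain ⟨G⟩ := hc.2
  refine ⟨hS, fun β => ?_⟩
  have h := D.place
  obtain ⟨y, hy, hgt⟩ := exists_unit_gen hS G β
  -- a unit generator gives level `1`
  have h1 : (ordMap hS).Lev (p - 1) 1 β := by
    refine TameMap.lev_succ_of_lead_zero h not_dvd_sub_one D.pi_pow (n := 0)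
      ⟨y, hy, by simpa using hgt.ge, ?_⟩
    rw [pow_zero, div_one, red_eq_zero_iff h hgt.ge]
    exact hgt
  have := charP_res D.place
  have hb : (cycNat p D.γ : ResidueField A) * (D.b₁.val : ResidueField A) = -1 := by
    have hne : (cycNat p D.γ : ZMod p) ≠ 0 := fun e => χ_ne_zero (k := k) (p := p) D.γ (by
      rw [← map_natCast (ZMod.castHom (dvd_refl p) k), e, map_zero])
    have h3 : (cycNat p D.γ : ZMod p) * D.b₁ = -1 := by
      rw [b₁, mul_neg, mul_inv_cancel₀ hne]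
    have h4 := congrArg (ZMod.castHom (dvd_refl p) (ResidueField A)) h3
    rwa [_root_.map_mul, map_natCast, map_neg, map_one,
      ← ZMod.natCast_zmod_val D.b₁, map_natCast] at h4
  -- climb to level `p - 1` with the move of `γ`
  have hclimb : ∀ n, 1 ≤ n → n ≤ p - 1 → (ordMap hS).Lev (p - 1) n β := by
    intro n hn
    induction n, hn using Nat.le_induction with
    | base => exact fun _ => h1
    | succ n hn ih =>
      intro hle
      refine (ordMap_move hS).lev_succ h not_dvd_sub_one D.pi_pow (by omega) ?_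
        (Or.inr fun h0 => ?_)
        (killed hS β) (ih (by omega))
      · have hp2 : (2 : ℚ) ≤ p := by exact_mod_cast hp.out.two_le
        rw [cast_sub_one, div_mul_cancel₀ _ (by linarith)]
        exact_mod_cast (show n < p by omega)
      · rw [hb, Nat.cast_zero, mul_zero, add_zero] at h0
        have h5 : red A D.z ^ n * (red A D.z ^ n - 1) = 0 := by linear_combination h0
        rcases mul_eq_zero.mp h5 with h6 | h6
        · have h7 : red A D.z ^ (p - 1) = 1 := by
            rw [← red_pow h (is_root_unity h sub_one_ne_zero' D.prim_z.pow_eq_one).ge,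
              D.prim_z.pow_eq_one, red_one]
          have h8 : red A D.z = 0 := eq_zero_of_pow_eq_zero h6
          rw [h8, zero_pow sub_one_ne_zero'] at h7
          exact zero_ne_one h7
        · have := Nat.le_of_dvd (by omega) (D.dvd_of_red_pow (sub_eq_zero.mp h6))
          omega
  exact hclimb (p - 1) (by have := D.two_le; omega) le_rfl

/-- A class with vanishing leading residue is trivial. -/
theorem trivial_of_lead {c : Γℚ → Matrix (Fin 2) (Fin 2) k} (hS : D.Shape c) {β : k →+ ZMod p}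
    (hl : (ordMap hS).Lead (p - 1) (p - 1) β 0) : ∀ σ ∈ tame A D.π, β (c σ 0 1) = 0 := by
  have h2 := TameMap.lev_succ_of_lead_zero D.place not_dvd_sub_one D.pi_pow hl
  refine TameMap.eq_zero_of_deep D.place not_dvd_sub_one D.pi_pow (dvd_refl _) ?_ h2
  rw [cast_sub_one, Nat.sub_add_cancel hp.out.one_le]

/-- The level `p - 1` is below the bound `p`. -/
lemma level_lt_p : ((p - 1 : ℕ) : ℚ) / ((p - 1 : ℕ) : ℚ) * ((p : ℚ) - 1) < p := by
  rw [div_self (Nat.cast_ne_zero.mpr sub_one_ne_zero'), one_mul]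
  linarith

/-- The inverse ratio of the diagonal at Frobenius. -/
def α (D : OrdData p A r) : k := r D.φ⁻¹ 0 0 / r D.φ⁻¹ 1 1

/-- **Frobenius is semilinear on leading residues.** -/
theorem lead_frob {c : Γℚ → Matrix (Fin 2) (Fin 2) k} (hS : D.Shape c) (hu : c D.φ 0 0 = 0)
    {n : ℕ} {β : k →+ ZMod p} {l : ResidueField A} (hl : (ordMap hS).Lead (p - 1) n β l) :
    (ordMap hS).Lead (p - 1) n (cycNat p D.φ • β.comp (AddMonoidHom.mulLeft D.α)) (l ^ p) := by
  have : NeZero p := ⟨hp.out.ne_zero⟩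
  obtain ⟨y, hy, hyn, rfl⟩ := hl
  have hφ := D.φ_dec
  -- conjugation by Frobenius scales the upper right entry by `α`
  have hconj : ∀ σ ∈ tame A D.π, D.φ⁻¹ * σ * D.φ ∈ tame A D.π ∧
      c (D.φ⁻¹ * σ * D.φ) 0 1 = D.α * c σ 0 1 := by
    intro σ hσ
    have hσD := D.tame_dec hσ
    refine ⟨mem_tame.mpr ⟨?_, ?_⟩, ?_⟩
    · have := conj_mem_inertia D.place (inv_mem hφ) hσ.1
      rwa [inv_inv] at this
    · change D.φ.symm (σ (D.φ D.π)) = D.π
      rw [AlgEquiv.symm_apply_eq, D.φ_pi, (mem_tame.mp hσ).2]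
    obtain ⟨u0, n0⟩ := hS.map_mul_apply (inv_mem hφ) hφ
    rw [inv_mul_cancel, hS.one, Matrix.zero_apply, hu, mul_zero, sub_zero] at n0
    obtain ⟨u1, n1⟩ := hS.map_mul_apply hσD hφ
    rw [hu, mul_zero, sub_zero, D.tame_one hσ, D.inertia_one σ hσ.1, one_mul, div_one] at n1
    rw [hu, add_zero, hS.diag_zero hσ.1] at u1
    rw [mul_assoc, (hS.map_mul_apply (inv_mem hφ) (mul_mem hσD hφ)).2, u1, n1, α]
    linear_combination -n0
  -- the Frobenius conjugate of the generator generates the new class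
  refine ⟨D.φ y, ⟨(_root_.map_ne_zero _).mpr hy.1, fun σ hσ => ?_⟩, ?_, ?_⟩
  · have e1 : σ (D.φ y) = D.φ ((D.φ⁻¹ * σ * D.φ) y) := by
      rw [← AlgEquiv.mul_apply σ D.φ, ← AlgEquiv.mul_apply D.φ]
      congr 1
      group
    rw [e1, hy.2 _ (hconj σ hσ).1, _root_.map_mul, _root_.map_pow,
      show (ordMap hS).ξ = D.ξ from rfl,
      Fermat.CFT.apply_eq_pow_cycChar D.φ D.root.pow_eq_one, ← pow_mul]
    congr 1
    refine pow_eq_pow_of_modEq ?_ D.root.pow_eq_one
    rw [← ZMod.natCast_eq_natCast_iff,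
      show (ordMap hS).c (D.φ⁻¹ * σ * D.φ) = D.α * c σ 0 1 from (hconj σ hσ).2]
    simp [cycNat, ordMap]
  · have := ge_apply_decomp D.place hφ hyn
    rwa [map_sub, _root_.map_pow, _root_.map_one] at this
  · rw [← red_apply_frob D.place D.frob
      (TameMap.ge_div_pi_pow D.place D.pi_pow sub_one_ne_zero' hyn)]
    congr 1
    rw [map_div₀, map_sub, _root_.map_pow, _root_.map_pow, _root_.map_one, D.φ_pi]

end OrdData

end Fermat.FLAT
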