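import Fermat.Agent.FLAT.Mult
import Fermat.Agent.FLAT.Residual
import Fermat.Agent.FLAT.Ordinary
import Fermat.Agent.FLAT.SS.Data

/-!
# Residual flat representations reducible on decomposition are ordinary

The main result is `exists_ordinary_basis`, a basis in which decomposition is triangular.
-/

set_option autoImplicit false
set_option linter.unusedSectionVars false

noncomputable section

open Fermat.EC.Val Matrix

namespace Fermat.FLAT

local notation "ℚbar" => AlgebraicClosure ℚ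
local notation "Γℚ" => (AlgebraicClosure ℚ ≃ₐ[ℚ] AlgebraicClosure ℚ)

variable {p : ℕ} [hp : Fact p.Prime] {A : ValuationSubring ℚbar}

namespace Model

variable {H : Subgroup Γℚ} {M : Type*} [AddCommGroup M] [Finite M] {g : Γℚ → AddMonoid.End M}
  (G : Model A H g) (hM : ∀ x : M, p • x = 0)
include hM

/-- An inertia stable line is cyclotomic or fixed according as it is connected or not. -/
theorem line_char (h : IsPlace A p) {x : M} (hx0 : x ≠ 0)
    (hst : ∀ σ ∈ A.inertiaSubgroupIn ℚ, g σ x - x ∈ AddSubgroup.zmultiples x) :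
    (x ∈ G.conn h → ∀ σ ∈ A.inertiaSubgroupIn ℚ,
        g σ x = ((Fermat.CFT.cycChar p σ : (ZMod p)ˣ) : ZMod p).val • x) ∧
      (x ∉ G.conn h → ∀ σ ∈ A.inertiaSubgroupIn ℚ, g σ x = x) := by
  refine ⟨fun hx σ hσ => ?_, fun hx σ hσ => ?_⟩
  · obtain ⟨π, hπ⟩ := exists_pi p (p - 1) sub_one_ne_zero'
    exact G.apply_eq_nsmul hM h hπ
      (G.dom_of_fixed h hπ hx (G.fixed_of_line hM h hπ hx hx0 hst)) hσ
      (by rw [cycChar_cast_eq_psi h hσ hπ]; rfl)
  · by_contra hne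
    obtain ⟨m, hm⟩ := AddSubgroup.mem_zmultiples_iff.mp (hst σ hσ)
    have hd := G.smul_sub_mem_conn h (isInert_of_mem_inertia hσ) (G.inertia_mem hσ) x
    rw [← hm] at hd
    have hpm : ¬ (p : ℤ) ∣ m := by
      rintro ⟨q, rfl⟩
      refine hne (sub_eq_zero.mp ?_)
      rw [← hm, mul_comm, mul_zsmul, natCast_zsmul, hM, zsmul_zero]
    obtain ⟨u, v, huv⟩ := ((Int.prime_iff_natAbs_prime.mpr
      (by simpa using hp.out)).coprime_iff_not_dvd.mpr hpm)
    refine hx ?_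
    have e : x = v • (m • x) := by
      have := congrArg (fun z : ℤ => z • x) huv
      simp only [add_zsmul, one_zsmul] at this
      rw [mul_zsmul, natCast_zsmul, hM, zsmul_zero, zero_add, mul_zsmul] at this
      exact this.symm
    exact e ▸ AddSubgroup.zsmul_mem _ hd v

end Model

variable {k : Type*} [Field k] [CharP k p] [Finite k] (r : Γℚ →* Matrix (Fin 2) (Fin 2) k)
  (L : IntermediateField ℚ ℚbar) [Normal ℚ L] [FiniteDimensional ℚ L]
  (hL : ∀ σ ∈ L.fixingSubgroup, r σ = 1)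

/-- A change of basis carrying two independent vectors to the standard ones. -/
lemma exists_coord {x y : Fin 2 → k} (hli : LinearIndependent k ![x, y]) :
    ∃ P Q : Matrix (Fin 2) (Fin 2) k, P * Q = 1 ∧ Q * P = 1 ∧ Q *ᵥ x = ![1, 0] ∧ Q *ᵥ y = ![0, 1] ∧
      ∀ M : Matrix (Fin 2) (Fin 2) k, ∀ i, (Q * M * P) i 0 = (Q *ᵥ (M *ᵥ x)) i ∧
        (Q * M * P) i 1 = (Q *ᵥ (M *ᵥ y)) i := by
  set P : Matrix (Fin 2) (Fin 2) k := (Matrix.of ![x, y])ᵀ with hP
  have hu : IsUnit P.det := by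
    rw [hP, Matrix.det_transpose]
    refine (Matrix.isUnit_iff_isUnit_det _).mp ?_
    exact Matrix.linearIndependent_rows_iff_isUnit.mp hli
  have h0 : P *ᵥ ![1, 0] = x := by
    funext i; simp [hP, Matrix.mulVec, dotProduct, Fin.sum_univ_two]
  have h1 : P *ᵥ ![0, 1] = y := by
    funext i; simp [hP, Matrix.mulVec, dotProduct, Fin.sum_univ_two]
  refine ⟨P, P⁻¹, Matrix.mul_nonsing_inv _ hu, Matrix.nonsing_inv_mul _ hu, ?_, ?_, fun M i => ?_⟩
  · rw [← h0, Matrix.mulVec_mulVec, Matrix.nonsing_inv_mul _ hu, Matrix.one_mulVec]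
  · rw [← h1, Matrix.mulVec_mulVec, Matrix.nonsing_inv_mul _ hu, Matrix.one_mulVec]
  · rw [← h0, ← h1, Matrix.mulVec_mulVec, Matrix.mulVec_mulVec, Matrix.mulVec_mulVec,
      Matrix.mulVec_mulVec]
    constructor <;> simp [Matrix.mulVec, dotProduct, Fin.sum_univ_two]

/-- Conjugation keeps the determinant. -/
lemma det_conj_eq {P Q : Matrix (Fin 2) (Fin 2) k} (hPQ : P * Q = 1)
    (M : Matrix (Fin 2) (Fin 2) k) :
    (Q * M * P).det = M.det := by
  rw [Matrix.det_mul, Matrix.det_mul, mul_comm Q.det, mul_assoc, ← Matrix.det_mul,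
    mul_eq_one_comm.mp hPQ, Matrix.det_one, mul_one]

/-- A reducible decomposition group has an eigenvector. -/
lemma exists_eigenvector (hnot : ¬ DecompIrred A r) :
    ∃ (x : Fin 2 → k) (a : Γℚ → k), x ≠ 0 ∧ (∃ y, ∀ c : k, c • x ≠ y) ∧
      ∀ σ ∈ A.decompositionSubgroup ℚ, a σ • x = r σ *ᵥ x := by
  rw [DecompIrred] at hnot
  push Not at hnot
  obtain ⟨W, hW, hbot, htop⟩ := hnot
  obtain ⟨x, hxW, hx0⟩ := W.ne_bot_iff.mp hbot
  have hWx : ∀ y ∈ W, ∃ c : k, c • x = y := by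
    intro y hy
    by_contra hc
    push Not at hc
    refine htop ?_
    have hli : LinearIndependent k ![x, y] := (LinearIndependent.pair_iff' hx0).mpr fun a => hc a
    refine eq_top_iff.mpr ?_
    rw [← hli.span_eq_top_of_card_eq_finrank (by simp), Submodule.span_le]
    rintro _ ⟨i, rfl⟩
    fin_cases i
    · exact hxW
    · exact hy
  choose! a ha using fun σ (hσ : σ ∈ A.decompositionSubgroup ℚ) => hWx _ (hW σ hσ x hxW)
  refine ⟨x, a, hx0, ?_, ha⟩
  by_contra hc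
  push Not at hc
  refine htop (eq_top_iff.mpr fun y _ => ?_)
  obtain ⟨c, rfl⟩ := hc y
  exact W.smul_mem c hxW

include hL in
/-- Inertia acts on an eigenvector through the prime field. -/
lemma exists_natCast_eq_eigenvalue (h : IsPlace A p) {x : Fin 2 → k} (hx0 : x ≠ 0) {a : Γℚ → k}
    (ha : ∀ σ ∈ A.decompositionSubgroup ℚ, a σ • x = r σ *ᵥ x) :
    ∀ σ ∈ A.inertiaSubgroupIn ℚ, ∃ n : ℕ, a σ = n := by
  classical
  have : NeZero p := ⟨hp.out.ne_zero⟩
  have hsc : ∀ {c c' : k}, c • x = c' • x → c = c' := fun {c c'} hcc =>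
    smul_left_injective k hx0 hcc
  -- the eigenvalue is a character of the decomposition group
  have hamul : ∀ σ ∈ A.decompositionSubgroup ℚ, ∀ τ ∈ A.decompositionSubgroup ℚ,
      a (σ * τ) = a σ * a τ := fun σ hσ τ hτ => hsc (by
    rw [ha _ (mul_mem hσ hτ), map_mul, ← Matrix.mulVec_mulVec, ← ha τ hτ, Matrix.mulVec_smul,
      ← ha σ hσ, smul_smul, mul_comm])
  have hker : L.fixingSubgroup ≤ r.toHomUnits.ker := fun τ hτ => Units.ext (hL τ hτ)
  have hI := inertia_le_decomposition A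
  have ha1 : a 1 = 1 := hsc (by rw [ha 1 (one_mem _), map_one, Matrix.one_mulVec, one_smul])
  have hapow : ∀ σ ∈ A.decompositionSubgroup ℚ, ∀ n : ℕ, a (σ ^ n) = a σ ^ n := by
    intro σ hσ n
    induction n with
    | zero => rw [pow_zero, pow_zero, ha1]
    | succ n ih => rw [pow_succ, hamul _ (pow_mem hσ n) _ hσ, ih, pow_succ]
  intro σ hσ
  obtain ⟨φ, hφ⟩ := Fermat.CFT.exists_isFrobeniusAt h.1 h.2
  have hφD := hφ.mem_decompositionSubgroup
  -- Frobenius sends `σ` to `σ ^ p` modulo wild inertia, where the character is one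
  have hw := frob_conj_mem_wildOn (L := L) h hφ hσ
  obtain ⟨N, hN⟩ := exists_pow_eq_one_of_wild h hker hw
  have h1 : a (φ * σ * φ⁻¹ * (σ ^ p)⁻¹) = 1 := by
    have h2 : a (φ * σ * φ⁻¹ * (σ ^ p)⁻¹) ^ p ^ N = 1 := by
      rw [← hapow _ (hI hw.1)]
      refine hsc ?_
      rw [ha _ (pow_mem (hI hw.1) _), one_smul]
      have := congrArg Units.val hN
      simp only [Units.val_pow_eq_pow_val, MonoidHom.coe_toHomUnits, Units.val_one] at this
      rw [map_pow, this, Matrix.one_mulVec]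
    exact (iterateFrobenius k p N).injective (by
      rw [iterateFrobenius_def, iterateFrobenius_def, h2, one_pow])
  -- so `a σ` is fixed by the `p`-th power
  obtain ⟨n, hn⟩ := CFT.exists_natCast_eq_of_pow_eq p (x := a σ) (by
    have h3 := hamul _ (hI hw.1) _ (pow_mem (hI hσ) p)
    rw [inv_mul_cancel_right, h1, one_mul, hapow _ (hI hσ), hamul _ (mul_mem hφD (hI hσ)) _
      (inv_mem hφD), hamul _ hφD _ (hI hσ)] at h3
    have h4 := hamul _ hφD _ (inv_mem hφD)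
    rw [mul_inv_cancel, ha1] at h4
    rw [← h3, mul_comm (a φ), mul_assoc, ← h4, mul_one])
  exact ⟨n, hn.symm⟩

/-- An eigenvalue on a nonzero vector is nonzero. -/
lemma eigenvalue_ne_zero {x : Fin 2 → k} (hx0 : x ≠ 0) {a : Γℚ → k}
    (ha : ∀ σ ∈ A.decompositionSubgroup ℚ, a σ • x = r σ *ᵥ x) {σ : Γℚ}
    (hσ : σ ∈ A.decompositionSubgroup ℚ) : a σ ≠ 0 := fun e => hx0 (by
  have h1 := congrArg (r σ⁻¹ *ᵥ ·) (ha σ hσ)
  simp only [e, zero_smul, Matrix.mulVec_zero, Matrix.mulVec_mulVec, ← map_mul, inv_mul_cancel,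
    map_one, Matrix.one_mulVec] at h1
  exact h1.symm)

/-- A connected line gives a triangular basis, cyclotomic on it. -/
lemma exists_basis_of_mem_conn
    (hdet : ∀ σ ∈ A.inertiaSubgroupIn ℚ,
      (r σ).det = (((Fermat.CFT.cycChar p σ : (ZMod p)ˣ) : ZMod p).val : k))
    {x y : Fin 2 → k} (hx0 : x ≠ 0) (hy : ∀ c : k, c • x ≠ y) {a : Γℚ → k}
    (ha : ∀ σ ∈ A.decompositionSubgroup ℚ, a σ • x = r σ *ᵥ x)
    (hcyc : ∀ σ ∈ A.inertiaSubgroupIn ℚ,
      resAct r σ x = ((Fermat.CFT.cycChar p σ : (ZMod p)ˣ) : ZMod p).val • x) :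
    ∃ P Q : Matrix (Fin 2) (Fin 2) k, P * Q = 1 ∧ Q * P = 1 ∧
      (∀ σ ∈ A.decompositionSubgroup ℚ, (Q * r σ * P) 1 0 = 0) ∧
      ∀ σ ∈ A.inertiaSubgroupIn ℚ, (Q * r σ * P) 1 1 = 1 ∧
        (Q * r σ * P) 0 0 = (((Fermat.CFT.cycChar p σ : (ZMod p)ˣ) : ZMod p).val : k) := by
  have hI := inertia_le_decomposition A
  obtain ⟨P, Q, hPQ, hQP, hQx, hQy, hcol⟩ :=
    exists_coord ((LinearIndependent.pair_iff' hx0).mpr hy)
  have h10 : ∀ σ ∈ A.decompositionSubgroup ℚ,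
      (Q * r σ * P) 1 0 = 0 ∧ (Q * r σ * P) 0 0 = a σ := fun σ hσ => by
    rw [(hcol _ 1).1, (hcol _ 0).1, ← ha σ hσ, Matrix.mulVec_smul, hQx]
    simp
  refine ⟨P, Q, hPQ, hQP, fun σ hσ => (h10 σ hσ).1, fun σ hσ => ?_⟩
  have h00 : (Q * r σ * P) 0 0 = (((Fermat.CFT.cycChar p σ : (ZMod p)ˣ) : ZMod p).val : k) := by
    rw [(h10 σ (hI hσ)).2]
    refine smul_left_injective k hx0 ?_
    change _ • x = _ • x
    rw [ha σ (hI hσ), Nat.cast_smul_eq_nsmul, ← resAct_apply, hcyc σ hσ]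
  refine ⟨?_, h00⟩
  have h5 := det_conj_eq hPQ (r σ)
  rw [hdet σ hσ, Matrix.det_fin_two, (h10 σ (hI hσ)).1, mul_zero, sub_zero, h00] at h5
  refine mul_left_cancel₀ ?_ (h5.trans (mul_one _).symm)
  rw [← h00, (h10 σ (hI hσ)).2]; exact eigenvalue_ne_zero r hx0 ha (hI hσ)

/-- An inertia fixed line outside the connected part gives an ordinary basis. -/
lemma exists_basis_of_notMem_conn (h : IsPlace A p) (hp2 : p ≠ 2)
    (hdet : ∀ σ ∈ A.inertiaSubgroupIn ℚ,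
      (r σ).det = (((Fermat.CFT.cycChar p σ : (ZMod p)ˣ) : ZMod p).val : k))
    (G : Model A (A.decompositionSubgroup ℚ) (resAct r)) {x y : Fin 2 → k} (hx0 : x ≠ 0)
    (hy : ∀ c : k, c • x ≠ y) (hfix' : ∀ σ ∈ A.inertiaSubgroupIn ℚ, r σ *ᵥ x = x) :
    ∃ P Q : Matrix (Fin 2) (Fin 2) k, P * Q = 1 ∧ Q * P = 1 ∧
      (∀ σ ∈ A.decompositionSubgroup ℚ, (Q * r σ * P) 1 0 = 0) ∧
      ∀ σ ∈ A.inertiaSubgroupIn ℚ, (Q * r σ * P) 1 1 = 1 ∧
        (Q * r σ * P) 0 0 = (((Fermat.CFT.cycChar p σ : (ZMod p)ˣ) : ZMod p).val : k) := by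
  classical
  have : NeZero p := ⟨hp.out.ne_zero⟩
  have hI := inertia_le_decomposition A
  have hM : ∀ v : Fin 2 → k, p • v = 0 := fun v => by
    rw [← Nat.cast_smul_eq_nsmul k, CharP.cast_eq_zero k p, zero_smul]
  obtain ⟨σ₀, hσ₀, hns⟩ := exists_cycChar_not_square h hp2
  set ω₀ : k := (((Fermat.CFT.cycChar p σ₀ : (ZMod p)ˣ) : ZMod p).val : k)
  have hω₀ : ω₀ ≠ 1 := fun e => hns 1 (by
    refine (ZMod.castHom (dvd_refl p) k).injective ?_
    rw [one_pow, map_one, ← e]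
    change _ = (((Fermat.CFT.cycChar p σ₀ : (ZMod p)ˣ) : ZMod p).val : k)
    rw [← map_natCast (ZMod.castHom (dvd_refl p) k), ZMod.natCast_zmod_val])
  obtain ⟨P, Q, hPQ, -, hQx, hQy, hcol⟩ :=
    exists_coord ((LinearIndependent.pair_iff' hx0).mpr hy)
  -- the line of `v = (σ₀ - 1) y` is the connected one; take `v`, `x` as the basis
  set v := r σ₀ *ᵥ y - y with hv
  have hQv : (Q *ᵥ v) 1 = ω₀ - 1 := by
    have h5 := det_conj_eq hPQ (r σ₀)
    rw [hdet σ₀ hσ₀, Matrix.det_fin_two, (hcol _ 0).1, (hcol _ 1).1, hfix' σ₀ hσ₀, hQx,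
      (hcol _ 1).2] at h5
    rw [hv, Matrix.mulVec_sub, hQy]
    simp at h5 ⊢
    rw [h5, show ω₀ = (((Fermat.CFT.cycChar p σ₀ : (ZMod p)ˣ) : ZMod p).val : k) from rfl]
    simp
  have hli : LinearIndependent k ![v, x] := by
    rw [LinearIndependent.pair_iff]
    intro s t hst'
    have := congrArg (fun w => (Q *ᵥ w) 1) hst'
    simp only [Matrix.mulVec_add, Matrix.mulVec_smul, Pi.add_apply, Pi.smul_apply, hQv, hQx,
      Matrix.mulVec_zero, Pi.zero_apply, smul_eq_mul] at this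
    simp at this
    have hs : s = 0 := this.resolve_right (sub_ne_zero.mpr hω₀)
    refine ⟨hs, ?_⟩
    rw [hs, zero_smul, zero_add, smul_eq_zero] at hst'
    exact hst'.resolve_right hx0
  have hvc : ∀ c : k, c • v ∈ G.conn h := fun c => by
    rw [hv, smul_sub, ← Matrix.mulVec_smul]
    exact G.smul_sub_mem_conn h (isInert_of_mem_inertia hσ₀) (hI hσ₀) _
  have hcx : ∀ c : k, c • x ∈ G.conn h → c = 0 := fun c hc => by
    have := G.eq_zero_of_fixed hM h hp2 hc fun σ hσ => by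
      rw [resAct_apply, Matrix.mulVec_smul, hfix' σ hσ]
    exact (smul_eq_zero.mp this).resolve_right hx0
  obtain ⟨P₁, Q₁, hPQ₁, hQP₁, hQv₁, hQx₁, hcol₁⟩ := exists_coord hli
  have hexp : ∀ w, w = (Q₁ *ᵥ w) 0 • v + (Q₁ *ᵥ w) 1 • x := fun w => by
    have hP : ∀ u, P₁ *ᵥ u = u 0 • v + u 1 • x := fun u => by
      have e : u = u 0 • ![(1 : k), 0] + u 1 • ![0, 1] := by
        funext i; fin_cases i <;> simp
      conv_lhs => rw [e, ← hQv₁, ← hQx₁, ← Matrix.mulVec_smul, ← Matrix.mulVec_smul,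
        ← Matrix.mulVec_add, Matrix.mulVec_mulVec, hPQ₁, Matrix.one_mulVec]
    rw [← hP, Matrix.mulVec_mulVec, hPQ₁, Matrix.one_mulVec]
  have hstab : ∀ σ ∈ A.decompositionSubgroup ℚ, (Q₁ * r σ * P₁) 1 0 = 0 := fun σ hσ => by
    rw [(hcol₁ _ 1).1]
    refine hcx _ ?_
    have h6 := G.conn_stable_decomposition h hσ hσ (hvc 1)
    rw [one_smul, resAct_apply] at h6
    have h7 := sub_mem h6 (hvc ((Q₁ *ᵥ (r σ *ᵥ v)) 0))
    rwa [sub_eq_iff_eq_add'.mpr (hexp (r σ *ᵥ v))] at h7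
  refine ⟨P₁, Q₁, hPQ₁, hQP₁, hstab, fun σ hσ => ?_⟩
  have h11 : (Q₁ * r σ * P₁) 1 1 = 1 := by
    rw [(hcol₁ _ 1).2, hfix' σ hσ, hQx₁]; rfl
  refine ⟨h11, ?_⟩
  have h5 := det_conj_eq hPQ₁ (r σ)
  rwa [hdet σ hσ, Matrix.det_fin_two, hstab σ (hI hσ), mul_zero, sub_zero, h11, mul_one] at h5

include hL in
/-- **Reducible and flat is ordinary**: in some basis decomposition is triangular and inertia is
cyclotomic on the stable line, trivial on the quotient. -/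
theorem exists_ordinary_basis (h : IsPlace A p) (hp2 : p ≠ 2)
    (hdet : ∀ σ ∈ A.inertiaSubgroupIn ℚ,
      (r σ).det = (((Fermat.CFT.cycChar p σ : (ZMod p)ˣ) : ZMod p).val : k))
    (G : Model A (A.decompositionSubgroup ℚ) (resAct r)) (hnot : ¬ DecompIrred A r) :
    ∃ P Q : Matrix (Fin 2) (Fin 2) k, P * Q = 1 ∧ Q * P = 1 ∧
      (∀ σ ∈ A.decompositionSubgroup ℚ, (Q * r σ * P) 1 0 = 0) ∧
      ∀ σ ∈ A.inertiaSubgroupIn ℚ, (Q * r σ * P) 1 1 = 1 ∧
        (Q * r σ * P) 0 0 = (((Fermat.CFT.cycChar p σ : (ZMod p)ˣ) : ZMod p).val : k) := by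
  classical
  have hM : ∀ v : Fin 2 → k, p • v = 0 := fun v => by
    rw [← Nat.cast_smul_eq_nsmul k, CharP.cast_eq_zero k p, zero_smul]
  obtain ⟨x, a, hx0, ⟨y, hy⟩, ha⟩ := exists_eigenvector r hnot
  have hst : ∀ σ ∈ A.inertiaSubgroupIn ℚ,
      resAct r σ x - x ∈ AddSubgroup.zmultiples x := by
    intro σ hσ
    obtain ⟨n, hn⟩ := exists_natCast_eq_eigenvalue r L hL h hx0 ha σ hσ
    refine ⟨(n : ℤ) - 1, ?_⟩
    change ((n : ℤ) - 1) • x = r σ *ᵥ x - x
    rw [← ha σ (inertia_le_decomposition A hσ), hn, sub_zsmul, natCast_zsmul, one_zsmul,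
      Nat.cast_smul_eq_nsmul, ← sub_eq_add_neg]
  obtain ⟨hcon, hfix⟩ := G.line_char hM h hx0 hst
  by_cases hxc : x ∈ G.conn h
  · exact exists_basis_of_mem_conn r hdet hx0 hy ha (hcon hxc)
  · exact exists_basis_of_notMem_conn r h hp2 hdet G hx0 hy (hfix hxc)

end Fermat.FLAT
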